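/-
Programme T1B (row 38 / S44), cell F8' HECKE-N, input of helper45's (R2) (report 997), helper87:
THE FUNDAMENTAL IDENTITY `∑_{w ∣ v} e(w|v) = [F' : F]` FOR A FINITE **SEPARABLE** EXTENSION OF
FUNCTION FIELDS over an algebraically closed field, in any characteristic (the characteristic-zero
version is `ES/HECKE/FundIdentity19`, helper19; same argument with `[Algebra.IsSeparable F F']`).

* `sum_ramificationIndex`   : `∑ w ∈ v.fiber F', e(w|v) = [F' : F]`;
* `fundamentalIdentity`     : Prelude `FundamentalIdentity K F F'`;
* `fundamentalIdentityAlong`: Prelude `FundamentalIdentityAlong K φ hφ`;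
* `sum_ramificationIndex_set`, `ncard_fiber_of_unramified`: the same without
  `HasPrincipalDivisors` (fibre as a set);
* `card_fiber_of_unramified`: if all `e(w|v) = 1` over `v` then `#fibre = [F' : F]`.
-/
import Mathlib
import Fermat.Agent.X0.FFSum
import Fermat.Prelude.Def_AlgebraicCurve_Correspondence
import Fermat.Agent.ES.HECKE.FundIdentity19

set_option autoImplicit false
set_option linter.style.haveILetI false
set_option linter.unusedSectionVars false

open AlgebraicCurve IsDedekindDomain

noncomputable section

namespace Fermat.Agent.T1B.Hecke87.FundSep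

open Fermat.Agent.X0 Fermat.Agent.X0.FF
open Fermat.Agent.ES.HECKE.FundIdentity19 (valuationSubring_eq_of_le)

variable {K F F' : Type*} [Field K] [Field F] [Field F'] [Algebra K F] [Algebra K F']
  [Algebra F F'] [IsScalarTower K F F']

/-- **The local sum formula, set form** (no `HasPrincipalDivisors`): for a place `v` of `F`, the
set of places of `F'` over `v` is finite and their ramification indices sum to `[F' : F]`
(`F'/F` finite separable, residue fields `K`). -/
theorem sum_ramificationIndex_set [FiniteDimensional F F'] [Algebra.IsSeparable F F']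
    (hres : ∀ w : Place K F', ∀ f ∈ w.toValuationSubring,
      ∃ c : K, f = algebraMap K F' c ∨ 0 < w.ord (f - algebraMap K F' c))
    (v : Place K F) :
    {w : Place K F' | w.restrict F = v}.Finite ∧
    ∑ᶠ w ∈ {w : Place K F' | w.restrict F = v}, (w.ramificationIndex F : ℤ) =
      (Module.finrank F F' : ℤ) := by
  classical
  -- the discrete valuation ring `A = O_v`
  let A := v.toValuationSubring
  letI : Algebra A F' := ((algebraMap F F').comp A.subtype).toAlgebra
  haveI : IsScalarTower A F F' := IsScalarTower.of_algebraMap_eq (fun _ => rfl)
  -- the integral closure `B` of `A` in `F'`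
  let B := integralClosure A F'
  haveI hDedB : IsDedekindDomain B := integralClosure.isDedekindDomain A F F'
  haveI hFracB : IsFractionRing B F' := integralClosure.isFractionRing_of_finite_extension F F'
  haveI hFinB : Module.Finite A B := IsIntegralClosure.finite A F F' B
  haveI hfaith : FaithfulSMul A B :=
    (faithfulSMul_iff_algebraMap_injective _ _).mpr (fun a b h => by
      have h1 : algebraMap A F' a = algebraMap A F' b :=
        congrArg (fun z : B => (z : F')) h
      exact Subtype.ext ((algebraMap F F').injective h1))
  letI : Algebra K B := ((algebraMap A B).comp (algebraMap K A)).toAlgebra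
  haveI : IsScalarTower K A B := IsScalarTower.of_algebraMap_eq (fun _ => rfl)
  haveI : IsScalarTower K B F' := IsScalarTower.of_algebraMap_eq (fun c => by
    show algebraMap K F' c = algebraMap F F' (algebraMap K F c)
    exact IsScalarTower.algebraMap_apply K F F' c)
  -- a uniformiser
  obtain ⟨t, ht⟩ := IsDiscreteValuationRing.exists_irreducible A
  have ht0 : t ≠ 0 := ht.ne_zero
  have hmax : (Ideal.span {t}).IsMaximal := by
    rw [← ht.maximalIdeal_eq]
    exact IsLocalRing.maximalIdeal.isMaximal A
  have key := sum_ord_of_dedekind (K := K) (F := F') (A := A) (B := B) t ht0 hmax hres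
  have htF : algebraMap B F' (algebraMap A B t) = algebraMap F F' (t : F) := rfl
  rw [htF] at key
  have hvt : v.ord (t : F) = 1 := v.ord_coe_irreducible ht
  -- `ord_w t = e(w|v)` on the fibre
  have hord : ∀ w : Place K F', w.restrict F = v →
      w.ord (algebraMap F F' (t : F)) = (w.ramificationIndex F : ℤ) := by
    intro w hw
    rw [w.ord_restrict (t : F), hw, hvt, mul_one]
  -- the index set is the fibre
  have hset : {w : Place K F' | (∀ b : B, algebraMap B F' b ∈ w.toValuationSubring) ∧
      0 < w.ord (algebraMap F F' (t : F))} = {w : Place K F' | w.restrict F = v} := by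
    ext w
    rw [Set.mem_ofPred_eq, Set.mem_ofPred_eq]
    constructor
    · rintro ⟨hB, -⟩
      apply Place.ext
      apply valuationSubring_eq_of_le v _ _ (w.restrict F).ne_top'
      intro a ha
      exact hB (algebraMap A B ⟨a, ha⟩)
    · intro hw
      refine ⟨fun b => ?_, ?_⟩
      · have hA : ∀ a : A, algebraMap A F' a ∈ w.toValuationSubring.toSubring := by
          intro a
          have ha : (a : F) ∈ (w.restrict F).toValuationSubring := by rw [hw]; exact a.2
          exact ha
        let _ : Algebra A w.toValuationSubring :=
          ((algebraMap A F').codRestrict w.toValuationSubring.toSubring hA).toAlgebra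
        have : IsScalarTower A w.toValuationSubring F' :=
          IsScalarTower.of_algebraMap_eq fun f => rfl
        have hb : IsIntegral A (algebraMap B F' b) := b.2
        have hb' : IsIntegral w.toValuationSubring (algebraMap B F' b) := hb.tower_top
        obtain ⟨z, hz⟩ := IsIntegrallyClosed.isIntegral_iff.mp hb'
        exact hz ▸ z.2
      · rw [hord w hw]
        exact_mod_cast w.ramificationIndex_pos (F := F)
  rw [hset] at key
  have hrank : Module.finrank A B = Module.finrank F F' :=
    (IsFractionRing.finrank_eq A F B F').symm
  refine ⟨key.1, ?_⟩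
  rw [← hrank, ← key.2]
  exact finsum_mem_congr rfl fun w hw => (hord w hw).symm

/-- If all places over `v` are unramified, the fibre has `[F' : F]` elements (set form). -/
theorem ncard_fiber_of_unramified [FiniteDimensional F F'] [Algebra.IsSeparable F F']
    (hres : ∀ w : Place K F', ∀ f ∈ w.toValuationSubring,
      ∃ c : K, f = algebraMap K F' c ∨ 0 < w.ord (f - algebraMap K F' c))
    (v : Place K F) (hunr : ∀ w : Place K F', w.restrict F = v → w.ramificationIndex F = 1) :
    {w : Place K F' | w.restrict F = v}.ncard = Module.finrank F F' := by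
  obtain ⟨hfin, hsum⟩ := sum_ramificationIndex_set hres v
  have h1 : ∑ᶠ w ∈ {w : Place K F' | w.restrict F = v}, (w.ramificationIndex F : ℤ) =
      ∑ᶠ w ∈ {w : Place K F' | w.restrict F = v}, (1 : ℤ) :=
    finsum_mem_congr rfl fun w hw => by rw [hunr w hw, Nat.cast_one]
  rw [h1, finsum_mem_eq_finite_toFinset_sum _ hfin, Finset.sum_const, nsmul_eq_mul, mul_one] at hsum
  rw [Set.ncard_eq_toFinset_card _ hfin]
  exact_mod_cast hsum

/-- **The local sum formula** (`Finset` form of the Prelude). -/
theorem sum_ramificationIndex [FiniteDimensional F F'] [Algebra.IsSeparable F F']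
    [HasPrincipalDivisors K F']
    (hres : ∀ w : Place K F', ∀ f ∈ w.toValuationSubring,
      ∃ c : K, f = algebraMap K F' c ∨ 0 < w.ord (f - algebraMap K F' c))
    (v : Place K F) :
    ∑ w ∈ v.fiber F', (w.ramificationIndex F : ℤ) = (Module.finrank F F' : ℤ) := by
  obtain ⟨-, hsum⟩ := sum_ramificationIndex_set hres v
  rw [← hsum]
  have hset : {w : Place K F' | w.restrict F = v} =
      ((v.fiber F' : Finset (Place K F')) : Set (Place K F')) := by
    ext w
    rw [Set.mem_ofPred_eq, Finset.mem_coe, Place.mem_fiber]
  rw [hset, finsum_mem_coe_finset]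

/-- If all places over `v` are unramified, the fibre has `[F' : F]` elements. -/
theorem card_fiber_of_unramified [FiniteDimensional F F'] [Algebra.IsSeparable F F']
    [HasPrincipalDivisors K F']
    (hres : ∀ w : Place K F', ∀ f ∈ w.toValuationSubring,
      ∃ c : K, f = algebraMap K F' c ∨ 0 < w.ord (f - algebraMap K F' c))
    (v : Place K F) (hunr : ∀ w ∈ v.fiber F', w.ramificationIndex F = 1) :
    (v.fiber F').card = Module.finrank F F' := by
  have h := sum_ramificationIndex hres v
  rw [Finset.sum_congr rfl (fun w hw => by rw [hunr w hw]), Nat.cast_one, Finset.sum_const,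
    nsmul_eq_mul, mul_one] at h
  exact_mod_cast h

/-- **`FundamentalIdentity K F F'`** for a finite separable extension of function fields over an
algebraically closed field (each with a transcendental generator). -/
theorem fundamentalIdentity [IsAlgClosed K] [FiniteDimensional F F'] [Algebra.IsSeparable F F']
    [HasPrincipalDivisors K F'] {x : F} (hx : IsGen K x) {x' : F'} (hx' : IsGen K x') :
    FundamentalIdentity K F F' where
  sum_ramificationIndex_mul_deg v := by
    have h := sum_ramificationIndex (fun w f hf => exists_ord_sub_pos hx' w hf) v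
    rw [deg_eq_one hx v, ← h, Finset.sum_mul]
    refine Finset.sum_congr rfl fun w _ => ?_
    rw [deg_eq_one hx' w]

end Fermat.Agent.T1B.Hecke87.FundSep

namespace Fermat.Agent.T1B.Hecke87.FundSep

open Fermat.Agent.X0 Fermat.Agent.X0.FF

variable {K F F' : Type*} [Field K] [Field F] [Field F'] [Algebra K F] [Algebra K F']

/-- **`FundamentalIdentityAlong K φ`** for a finite separable `K`-embedding `φ : F → F'` of
function fields over an algebraically closed field. -/
theorem fundamentalIdentityAlong [IsAlgClosed K] [HasPrincipalDivisors K F']
    (φ : F →ₐ[K] F') (hφ : φ.toRingHom.IsIntegral) (hfin : FiniteAlong K φ)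
    (hsep : SeparableAlong K φ)
    {x : F} (hx : IsGen K x) {x' : F'} (hx' : IsGen K x') :
    FundamentalIdentityAlong K φ hφ := by
  letI := algebraAlong φ
  haveI := isScalarTower_along φ
  haveI : FiniteDimensional F F' := hfin
  haveI : Algebra.IsSeparable F F' := hsep
  exact fundamentalIdentity hx hx'

end Fermat.Agent.T1B.Hecke87.FundSep
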