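/-
Programme T1B (row 38 / S44), cell F8' HECKE-N, input (c) of helper45's (R2) (report 997),
helper87: THE NORM FORMULA FOR A FINITE **SEPARABLE** EXTENSION OF FUNCTION FIELDS, in any
characteristic (the characteristic-zero version is `ES/HECKE/NormFormula15`, helper15; this file is
the same argument with `[Algebra.IsSeparable F F']` instead of `[CharZero F]`, and a new proof of
`relNorm P = 𝔪` which does not need a perfect fraction field).

`F ⊂ F'` finite separable, function fields over `K`, all places of `F'` of degree one (e.g. `K`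
algebraically closed and `F'` with a generator `IsGen K x'`):

* `fiberEquiv v : {w : Place K F' // w.restrict F = v} ≃ HeightOneSpectrum (IC F' v)`;
* `ord_norm`    : `ord_v (N_{F'/F} f) = ∑ᶠ_P ord_{w_P} f`;
* `ord_norm_fiber` : `ord_v (N_{F'/F} f) = ∑ᶠ w : {w // w.restrict F = v}, ord_w f`;
* `relNorm_eq_of_inertiaDeg_eq_one` : abstract Dedekind lemma `relNorm P = p` when all residue
  degrees over `p` are one (no perfectness);
* `pushforwardNormFormula`, `normFormulaAlong` (Prelude shapes), `..._of_isGen`.
-/
import Mathlib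
import Fermat.Prelude.Def_AlgebraicCurve_Correspondence
import Fermat.Agent.X0.FFDedekind
import Fermat.Agent.X0.FFSum
import Fermat.Agent.ES.HECKE.NormFormula15

set_option autoImplicit false
set_option linter.unusedSectionVars false
set_option linter.overlappingInstances false
set_option linter.style.haveILetI false

open AlgebraicCurve IsDedekindDomain IsLocalRing

noncomputable section

namespace Fermat.Agent.T1B.Hecke87.NormSep

open Fermat.Agent.X0 Fermat.Agent.X0.FF
open Fermat.Agent.ES.HECKE.NormFormula15 (exists_const_of_deg_eq_one)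

/-! ### relative norms of primes of residue degree one -/

section Abstract

open Ideal

variable {R S : Type*} [CommRing R] [IsDomain R] [CommRing S] [IsDomain S]
  [IsDedekindDomain R] [IsDedekindDomain S] [Algebra R S] [Module.Finite R S]
  [Module.IsTorsionFree R S]

/-- If all primes over the maximal ideal `p` have residue degree one, then their relative norm
is `p` (no separability or perfectness assumption on the fraction fields). -/
theorem relNorm_eq_of_inertiaDeg_eq_one (p : Ideal R) [p.IsMaximal] (hp0 : p ≠ ⊥)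
    (hf : ∀ Q ∈ p.primesOver S, Q.inertiaDeg R = 1) (P : Ideal S) (hP : P ∈ p.primesOver S) :
    relNorm R P = p := by
  classical
  have hptop : p ≠ ⊤ := IsMaximal.ne_top inferInstance
  -- exponents
  have key : ∀ Q : Ideal S, Q ∈ p.primesOver S → ∃ s, 1 ≤ s ∧ relNorm R Q = p ^ s := by
    intro Q hQ
    haveI : Q.IsPrime := hQ.1
    haveI : Q.LiesOver p := hQ.2
    obtain ⟨s, hs⟩ := exists_relNorm_eq_pow_of_isPrime Q p
    refine ⟨s, ?_, hs⟩
    by_contra h
    have h0 : s = 0 := by omega
    subst h0
    rw [pow_zero] at hs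
    have h1 := relNorm_le_comap (R := R) Q
    rw [hs, ← under_def, ← over_def Q p, one_eq_top] at h1
    exact hptop (top_le_iff.mp h1)
  choose! s hs1 hs using key
  have hpow_inj : Function.Injective (fun n : ℕ => p ^ n) := by
    refine (IsLeftCancelMulZero.mul_left_cancel_of_ne_zero hp0).pow_injective ?_
    rw [one_eq_top]
    exact hptop
  -- the product formula
  have h1 : relNorm R (map (algebraMap R S) p) = p ^ Module.finrank R S := relNorm_algebraMap S p
  have h2 : map (algebraMap R S) p = ∏ Q ∈ p.primesOver S, Q ^ Q.ramificationIdx R :=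
    map_algebraMap_eq_finsetProd_pow (R := S) hp0
  have h3 : ∑ Q ∈ (p.primesOver S).toFinset, Q.ramificationIdx R * s Q = Module.finrank R S := by
    apply hpow_inj
    show p ^ _ = p ^ _
    rw [← h1, h2, map_prod, ← Finset.prod_pow_eq_pow_sum]
    refine Finset.prod_congr rfl fun Q hQ => ?_
    rw [Set.mem_toFinset] at hQ
    rw [map_pow, hs Q hQ, ← pow_mul, mul_comm]
  have h4 : ∑ Q ∈ (p.primesOver S).toFinset, Q.ramificationIdx R = Module.finrank R S := by
    have := sum_ramification_inertia_eq_finrank p S (R := R)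
    rw [← this, ← Finset.sum_set_coe]
    refine Finset.sum_congr rfl fun Q _ => ?_
    rw [hf Q.1 Q.2, mul_one]
  -- compare
  have hPmem : P ∈ (p.primesOver S).toFinset := Set.mem_toFinset.mpr hP
  have h5 : ∀ Q ∈ (p.primesOver S).toFinset,
      Q.ramificationIdx R ≤ Q.ramificationIdx R * s Q := fun Q hQ =>
    Nat.le_mul_of_pos_right _ (hs1 Q (Set.mem_toFinset.mp hQ))
  have h6 : ∀ Q ∈ (p.primesOver S).toFinset,
      Q.ramificationIdx R = Q.ramificationIdx R * s Q :=
    (Finset.sum_eq_sum_iff_of_le h5).mp (h4.trans h3.symm)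
  have h7 := h6 P hPmem
  haveI : P.IsPrime := hP.1
  haveI : P.LiesOver p := hP.2
  have he : P.ramificationIdx R ≠ 0 := (ramificationIdx_pos (R := R) P).ne'
  have hs1' : s P = 1 := by
    have : P.ramificationIdx R * 1 = P.ramificationIdx R * s P := by rw [mul_one]; exact h7
    exact (Nat.eq_of_mul_eq_mul_left (Nat.pos_of_ne_zero he) this).symm
  rw [hs P hP, hs1', pow_one]

end Abstract

/-! ### the integral closure of `O_v` in `F'` -/

section Setup

variable {K F : Type*} (F' : Type*) [Field K] [Field F] [Field F'] [Algebra K F] [Algebra K F']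
  [Algebra F F'] [IsScalarTower K F F'] [FiniteDimensional F F'] [Algebra.IsSeparable F F']

/-- `B_v`: the integral closure of `O_v` in `F'`. -/
abbrev IC (v : Place K F) : Subalgebra ↥v.toValuationSubring F' :=
  integralClosure ↥v.toValuationSubring F'

instance isDedekindDomain_IC (v : Place K F) : IsDedekindDomain ↥(IC F' v) :=
  integralClosure.isDedekindDomain ↥v.toValuationSubring F F'

instance finite_IC (v : Place K F) : Module.Finite ↥v.toValuationSubring ↥(IC F' v) :=
  IsIntegralClosure.finite ↥v.toValuationSubring F F' _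

instance isFractionRing_IC (v : Place K F) : IsFractionRing ↥(IC F' v) F' :=
  integralClosure.isFractionRing_of_finite_extension F F'

instance algebraK_IC (v : Place K F) : Algebra K ↥(IC F' v) :=
  ((algebraMap ↥v.toValuationSubring ↥(IC F' v)).comp
    (algebraMap K ↥v.toValuationSubring)).toAlgebra

instance isScalarTower_K_A_IC (v : Place K F) :
    IsScalarTower K ↥v.toValuationSubring ↥(IC F' v) :=
  IsScalarTower.of_algebraMap_eq fun _ => rfl

theorem coe_algebraMap_A (v : Place K F) (a : ↥v.toValuationSubring) :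
    algebraMap ↥v.toValuationSubring F' a = algebraMap F F' (a : F) := rfl

theorem coe_algebraMap_A_IC (v : Place K F) (a : ↥v.toValuationSubring) :
    ((algebraMap ↥v.toValuationSubring ↥(IC F' v) a : ↥(IC F' v)) : F') =
      algebraMap F F' (a : F) := rfl

instance isScalarTower_K_IC (v : Place K F) : IsScalarTower K ↥(IC F' v) F' :=
  IsScalarTower.of_algebraMap_eq fun c => by
    show algebraMap K F' c = algebraMap F F' (algebraMap K F c)
    rw [← IsScalarTower.algebraMap_apply]

end Setup

/-! ### the dictionary: fibre of `v` ↔ height-one primes of `B_v` -/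

section Dict

variable {K F : Type*} (F' : Type*) [Field K] [Field F] [Field F'] [Algebra K F] [Algebra K F']
  [Algebra F F'] [IsScalarTower K F F'] [FiniteDimensional F F'] [Algebra.IsSeparable F F']

variable {F'}

/-- If `w` restricts to `v`, then `B_v ⊂ O_w`. -/
theorem IC_le_of_restrict_eq {v : Place K F} {w : Place K F'} (hw : w.restrict F = v)
    (b : ↥(IC F' v)) : algebraMap ↥(IC F' v) F' b ∈ w.toValuationSubring := by
  have hA : ∀ a : ↥v.toValuationSubring,
      algebraMap ↥v.toValuationSubring F' a ∈ w.toValuationSubring := by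
    intro a
    rw [coe_algebraMap_A]
    have : (a : F) ∈ (w.restrict F).toValuationSubring := by rw [hw]; exact a.2
    exact (w.mem_restrict_iff).mp this
  exact FFDedekind.mem_of_isIntegral_of_algebraMap_mem w hA b.2

/-- The height-one prime of `B_v` under a place `w` over `v`. -/
def primeOf {v : Place K F} (w : Place K F') (hw : w.restrict F = v) :
    HeightOneSpectrum ↥(IC F' v) :=
  FFDedekind.centreSpec w (IC_le_of_restrict_eq hw)

/-- The place of `F'` attached to a height-one prime of `B_v`. -/
def placeOf {v : Place K F} (P : HeightOneSpectrum ↥(IC F' v)) : Place K F' :=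
  Place.ofHeightOneSpectrum (K := K) (F := F') P

theorem placeOf_primeOf {v : Place K F} (w : Place K F') (hw : w.restrict F = v) :
    placeOf (primeOf w hw) = w :=
  FFDedekind.ofHeightOneSpectrum_centreSpec w (IC_le_of_restrict_eq hw)

theorem algebraMap_mem_placeOf {v : Place K F} (P : HeightOneSpectrum ↥(IC F' v))
    (b : ↥(IC F' v)) : algebraMap ↥(IC F' v) F' b ∈ (placeOf P).toValuationSubring :=
  FFDedekind.algebraMap_mem_ofHeightOneSpectrum P b

theorem restrict_placeOf {v : Place K F} (P : HeightOneSpectrum ↥(IC F' v)) :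
    (placeOf P).restrict F = v := by
  symm
  apply Place.ext
  refine ValuationSubring.eq_of_le_of_ne_top _ ?_ ((placeOf P).restrict F).ne_top'
  intro a ha
  rw [Place.mem_restrict_iff]
  have := algebraMap_mem_placeOf P (algebraMap ↥v.toValuationSubring ↥(IC F' v) ⟨a, ha⟩)
  exact this

theorem primeOf_placeOf {v : Place K F} (P : HeightOneSpectrum ↥(IC F' v)) :
    primeOf (placeOf P) (restrict_placeOf P) = P :=
  FFDedekind.centreSpec_ofHeightOneSpectrum P

theorem placeOf_injective {v : Place K F} :
    Function.Injective (placeOf : HeightOneSpectrum ↥(IC F' v) → Place K F') :=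
  FFDedekind.ofHeightOneSpectrum_injective

/-- The fibre of `v` is the set of places attached to the height-one primes of `B_v`. -/
def fiberEquiv (v : Place K F) :
    {w : Place K F' // w.restrict F = v} ≃ HeightOneSpectrum ↥(IC F' v) where
  toFun w := primeOf w.1 w.2
  invFun P := ⟨placeOf P, restrict_placeOf P⟩
  left_inv w := Subtype.ext (placeOf_primeOf w.1 w.2)
  right_inv P := primeOf_placeOf P

end Dict

/-! ### the relative norm of ideals of `B_v` -/

section Norm

variable {K F F' : Type*} [Field K] [Field F] [Field F'] [Algebra K F] [Algebra K F']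
  [Algebra F F'] [IsScalarTower K F F'] [FiniteDimensional F F'] [Algebra.IsSeparable F F']

instance faithfulSMul_IC (v : Place K F) :
    FaithfulSMul ↥v.toValuationSubring ↥(IC F' v) := by
  rw [faithfulSMul_iff_algebraMap_injective]
  intro a b hab
  have h := congrArg (fun x : ↥(IC F' v) => (x : F')) hab
  simp only [coe_algebraMap_A_IC] at h
  exact Subtype.ext ((algebraMap F F').injective h)

instance liesOver_IC (v : Place K F) (P : HeightOneSpectrum ↥(IC F' v)) :
    P.asIdeal.LiesOver (maximalIdeal ↥v.toValuationSubring) := by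
  constructor
  have : P.asIdeal.IsMaximal := P.isMaximal
  have h : (P.asIdeal.under ↥v.toValuationSubring).IsMaximal := inferInstance
  exact (IsLocalRing.eq_maximalIdeal h).symm

/-- `B_v` is semilocal: it has finitely many height-one primes. -/
instance finite_heightOneSpectrum_IC (v : Place K F) :
    Finite (HeightOneSpectrum ↥(IC F' v)) := by
  obtain ⟨π, hπ⟩ := IsDiscreteValuationRing.exists_irreducible ↥v.toValuationSubring
  have hπB : algebraMap ↥v.toValuationSubring ↥(IC F' v) π ≠ 0 := by
    rw [Ne, FaithfulSMul.algebraMap_eq_zero_iff]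
    exact hπ.ne_zero
  have hI : (Ideal.span {algebraMap ↥v.toValuationSubring ↥(IC F' v) π} :
      Ideal ↥(IC F' v)) ≠ 0 := by
    rw [Ne, Ideal.zero_eq_bot, Ideal.span_singleton_eq_bot]
    exact hπB
  refine Set.finite_univ_iff.mp ((Ideal.finite_factors hI).subset fun P _ => ?_)
  show P.asIdeal ∣ Ideal.span {algebraMap ↥v.toValuationSubring ↥(IC F' v) π}
  rw [Ideal.dvd_span_singleton]
  have hmem : π ∈ P.asIdeal.under ↥v.toValuationSubring := by
    rw [← Ideal.over_def P.asIdeal (maximalIdeal ↥v.toValuationSubring)]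
    exact (IsDiscreteValuationRing.irreducible_iff_uniformizer _).mp hπ ▸
      Ideal.mem_span_singleton_self π
  exact hmem

theorem inertiaDeg_IC (hdeg' : ∀ w : Place K F', w.deg = 1) (v : Place K F)
    (P : HeightOneSpectrum ↥(IC F' v)) :
    P.asIdeal.inertiaDeg ↥v.toValuationSubring = 1 := by
  have : P.asIdeal.IsMaximal := P.isMaximal
  refine inertiaDeg_eq_one_of_forall (maximalIdeal ↥v.toValuationSubring) P.asIdeal ?_
  intro b
  obtain ⟨c, hc⟩ := exists_const_of_deg_eq_one (placeOf P) (hdeg' _) (algebraMap_mem_placeOf P b)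
  refine ⟨algebraMap K ↥v.toValuationSubring c, ?_⟩
  rw [mem_asIdeal_iff_ord_pos (K := K) (F := F')]
  have hF : algebraMap ↥(IC F' v) F'
      (algebraMap ↥v.toValuationSubring ↥(IC F' v) (algebraMap K ↥v.toValuationSubring c) - b) =
        algebraMap K F' c - algebraMap ↥(IC F' v) F' b := by
    rw [map_sub, ← IsScalarTower.algebraMap_apply K ↥v.toValuationSubring ↥(IC F' v),
      ← IsScalarTower.algebraMap_apply K ↥(IC F' v) F']
  rcases hc with hc | hc
  · left
    apply IsFractionRing.injective ↥(IC F' v) F'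
    rw [hF, hc, sub_self, map_zero]
  · right
    rw [hF, ← ord_neg, neg_sub]
    exact hc

theorem relNorm_prime_IC (hdeg' : ∀ w : Place K F', w.deg = 1) (v : Place K F)
    (P : HeightOneSpectrum ↥(IC F' v)) :
    Ideal.relNorm ↥v.toValuationSubring P.asIdeal = maximalIdeal ↥v.toValuationSubring := by
  have h0 : maximalIdeal ↥v.toValuationSubring ≠ ⊥ :=
    IsDiscreteValuationRing.not_a_field ↥v.toValuationSubring
  refine relNorm_eq_of_inertiaDeg_eq_one (maximalIdeal ↥v.toValuationSubring) h0 ?_ P.asIdeal
    ⟨P.isPrime, inferInstance⟩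
  intro Q hQ
  have hQ0 : Q ≠ ⊥ := Ideal.ne_bot_of_mem_primesOver h0 hQ
  exact inertiaDeg_IC hdeg' v ⟨Q, hQ.1, hQ0⟩

theorem relNorm_IC (hdeg' : ∀ w : Place K F', w.deg = 1) (v : Place K F)
    {I : Ideal ↥(IC F' v)} (hI : I ≠ 0) :
    Ideal.relNorm ↥v.toValuationSubring I = maximalIdeal ↥v.toValuationSubring ^
      ∑ᶠ P : HeightOneSpectrum ↥(IC F' v),
        (Associates.mk P.asIdeal).count (Associates.mk I).factors := by
  classical
  let _ := Fintype.ofFinite (HeightOneSpectrum ↥(IC F' v))
  conv_lhs => rw [← Ideal.finprod_heightOneSpectrum_factorization hI]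
  rw [finprod_eq_prod_of_fintype, map_prod, finsum_eq_sum_of_fintype,
    ← Finset.prod_pow_eq_pow_sum]
  refine Finset.prod_congr rfl fun P _ => ?_
  rw [HeightOneSpectrum.maxPowDividing, map_pow, relNorm_prime_IC hdeg' v P]

/-- `ord_v` of an element generating `𝔪 ^ n`. -/
theorem ord_eq_of_span_eq_pow (v : Place K F) {a : ↥v.toValuationSubring} {n : ℕ}
    (h : Ideal.span {a} = maximalIdeal ↥v.toValuationSubring ^ n) : v.ord (a : F) = n := by
  obtain ⟨π, hπ⟩ := IsDiscreteValuationRing.exists_irreducible ↥v.toValuationSubring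
  rw [(IsDiscreteValuationRing.irreducible_iff_uniformizer _).mp hπ, Ideal.span_singleton_pow,
    Ideal.span_singleton_eq_span_singleton] at h
  obtain ⟨u, hu⟩ := h.symm
  have h1 : (a : F) = ((π : F) ^ n) * ((u : ↥v.toValuationSubring) : F) := by
    rw [← hu]; push_cast; rfl
  have hπ0 : (π : F) ≠ 0 := by
    simpa [ne_eq, ZeroMemClass.coe_eq_zero] using hπ.ne_zero
  have hu0 : ((u : ↥v.toValuationSubring) : F) ≠ 0 := by
    simp [ne_eq, ZeroMemClass.coe_eq_zero]
  rw [h1, v.ord_mul (pow_ne_zero _ hπ0) hu0, FF.ord_pow, v.ord_coe_irreducible hπ,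
    v.ord_coe_unit, mul_one, add_zero]

theorem ord_norm_IC (hdeg' : ∀ w : Place K F', w.deg = 1) (v : Place K F)
    {b : ↥(IC F' v)} (hb : b ≠ 0) :
    v.ord (Algebra.norm F (algebraMap ↥(IC F' v) F' b)) =
      ∑ᶠ P : HeightOneSpectrum ↥(IC F' v), (placeOf P).ord (algebraMap ↥(IC F' v) F' b) := by
  classical
  let _ := Fintype.ofFinite (HeightOneSpectrum ↥(IC F' v))
  have hI : (Ideal.span {b} : Ideal ↥(IC F' v)) ≠ 0 := by
    rw [Ne, Ideal.zero_eq_bot, Ideal.span_singleton_eq_bot]
    exact hb
  have h1 := relNorm_IC hdeg' v hI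
  rw [Ideal.relNorm_singleton] at h1
  have h2 := ord_eq_of_span_eq_pow v h1
  have h3 : algebraMap ↥v.toValuationSubring F
      (Algebra.intNorm ↥v.toValuationSubring ↥(IC F' v) b) =
        Algebra.norm F (algebraMap ↥(IC F' v) F' b) :=
    Algebra.algebraMap_intNorm (A := ↥v.toValuationSubring) (K := F) (L := F')
      (B := ↥(IC F' v)) b
  rw [← h3]
  show v.ord ((Algebra.intNorm ↥v.toValuationSubring ↥(IC F' v) b : ↥v.toValuationSubring) : F) = _
  rw [h2, finsum_eq_sum_of_fintype, finsum_eq_sum_of_fintype, Nat.cast_sum]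
  refine Finset.sum_congr rfl fun P _ => ?_
  exact (FFDedekind.ord_ofHeightOneSpectrum_algebraMap (K := K) (F := F') P hb).symm

theorem ord_norm (hdeg' : ∀ w : Place K F', w.deg = 1) (v : Place K F)
    {f : F'} (hf : f ≠ 0) :
    v.ord (Algebra.norm F f) =
      ∑ᶠ P : HeightOneSpectrum ↥(IC F' v), (placeOf P).ord f := by
  classical
  let _ := Fintype.ofFinite (HeightOneSpectrum ↥(IC F' v))
  obtain ⟨b1, b2, hb2, rfl⟩ := IsFractionRing.div_surjective (A := ↥(IC F' v)) f
  have hb2' : b2 ≠ 0 := nonZeroDivisors.ne_zero hb2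
  have hb1' : b1 ≠ 0 := by
    rintro rfl
    simp at hf
  have hinj := IsFractionRing.injective ↥(IC F' v) F'
  have h1 : algebraMap ↥(IC F' v) F' b1 ≠ 0 := (map_ne_zero_iff _ hinj).mpr hb1'
  have h2 : algebraMap ↥(IC F' v) F' b2 ≠ 0 := (map_ne_zero_iff _ hinj).mpr hb2'
  have hn1 : Algebra.norm F (algebraMap ↥(IC F' v) F' b1) ≠ 0 := Algebra.norm_ne_zero_iff.mpr h1
  have hn2 : Algebra.norm F (algebraMap ↥(IC F' v) F' b2) ≠ 0 := Algebra.norm_ne_zero_iff.mpr h2
  have hninv : Algebra.norm F (algebraMap ↥(IC F' v) F' b2)⁻¹ =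
      (Algebra.norm F (algebraMap ↥(IC F' v) F' b2))⁻¹ := by
    apply eq_inv_of_mul_eq_one_left
    rw [← map_mul, inv_mul_cancel₀ h2, map_one]
  rw [div_eq_mul_inv, map_mul, hninv, v.ord_mul hn1 (inv_ne_zero hn2), v.ord_inv,
    ord_norm_IC hdeg' v hb1', ord_norm_IC hdeg' v hb2', finsum_eq_sum_of_fintype,
    finsum_eq_sum_of_fintype, finsum_eq_sum_of_fintype, ← sub_eq_add_neg,
    ← Finset.sum_sub_distrib]
  refine Finset.sum_congr rfl fun P _ => ?_
  rw [(placeOf P).ord_mul h1 (inv_ne_zero h2), (placeOf P).ord_inv, sub_eq_add_neg]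

theorem inertiaDeg_eq_one (hdeg' : ∀ w : Place K F', w.deg = 1) (w : Place K F') :
    w.inertiaDeg F = 1 := by
  have h := w.deg_restrict_mul_inertiaDeg (F := F)
  rw [hdeg' w] at h
  exact Nat.eq_one_of_mul_eq_one_left h

theorem pushforwardNormFormula (hdeg' : ∀ w : Place K F', w.deg = 1) :
    Divisor.PushforwardNormFormula K F F' := by
  classical
  intro f hf D hD v
  let _ := Fintype.ofFinite (HeightOneSpectrum ↥(IC F' v))
  rw [Divisor.pushforward_apply, ord_norm hdeg' v hf, finsum_eq_sum_of_fintype,
    ← Finset.sum_filter,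
    ← Finset.sum_image (s := Finset.univ) (g := placeOf) (f := fun w : Place K F' => w.ord f)
      (fun P _ Q _ h => placeOf_injective h)]
  have hsum : ∑ w ∈ D.support with w.restrict F = v, D w * (w.inertiaDeg F : ℤ) =
      ∑ w ∈ D.support with w.restrict F = v, w.ord f := by
    refine Finset.sum_congr rfl fun w _ => ?_
    rw [inertiaDeg_eq_one hdeg' w, hD w, Nat.cast_one, mul_one]
  rw [hsum]
  refine Finset.sum_subset ?_ ?_
  · intro w hw
    rw [Finset.mem_filter] at hw
    rw [Finset.mem_image]
    exact ⟨primeOf w hw.2, Finset.mem_univ _, placeOf_primeOf w hw.2⟩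
  · intro w hw hnot
    rw [Finset.mem_image] at hw
    obtain ⟨P, -, rfl⟩ := hw
    rw [Finset.mem_filter, not_and_or] at hnot
    rcases hnot with hnot | hnot
    · rw [Finsupp.mem_support_iff, not_not] at hnot
      rw [← hD, hnot]
    · exact absurd (restrict_placeOf P) hnot

end Norm

/-! ### the fibre form -/

section Fiber

variable {K F F' : Type*} [Field K] [Field F] [Field F'] [Algebra K F] [Algebra K F']
  [Algebra F F'] [IsScalarTower K F F'] [FiniteDimensional F F'] [Algebra.IsSeparable F F']

/-- The fibre of a place is finite. -/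
instance finite_fiber (v : Place K F) : Finite {w : Place K F' // w.restrict F = v} :=
  Finite.of_equiv _ (fiberEquiv v).symm

/-- `ord_v (N_{F'/F} f) = ∑_{w ∣ v} ord_w f` (all places of `F'` of degree one). -/
theorem ord_norm_fiber (hdeg' : ∀ w : Place K F', w.deg = 1) (v : Place K F)
    {f : F'} (hf : f ≠ 0) :
    v.ord (Algebra.norm F f) = ∑ᶠ w : {w : Place K F' // w.restrict F = v}, w.1.ord f := by
  rw [ord_norm hdeg' v hf]
  exact (finsum_comp_equiv (fiberEquiv (F' := F') v)
    (f := fun P : HeightOneSpectrum ↥(IC F' v) => (placeOf P).ord f)).symm.trans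
    (finsum_congr fun w => by
      show (placeOf (primeOf w.1 w.2)).ord f = w.1.ord f
      rw [placeOf_primeOf])

end Fiber

/-! ### corollaries: the `Along` form, and the algebraically closed case -/

section Along

variable {K F F' : Type*} [Field K] [Field F] [Field F'] [Algebra K F] [Algebra K F']

/-- The norm formula along a `K`-algebra map `φ : F → F'` making `F'` finite separable over
`F`. -/
theorem normFormulaAlong (φ : F →ₐ[K] F') (hfin : FiniteAlong K φ) (hsep : SeparableAlong K φ)
    (hdeg' : ∀ w : Place K F', w.deg = 1) : NormFormulaAlong K φ hfin := by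
  letI := algebraAlong φ
  haveI := isScalarTower_along φ
  haveI : Module.Finite F F' := hfin
  haveI : Algebra.IsSeparable F F' := hsep
  exact pushforwardNormFormula hdeg'

end Along

section AlgClosed

variable {K F F' : Type*} [Field K] [Field F] [Field F'] [Algebra K F] [Algebra K F']
  [IsAlgClosed K]

/-- The norm formula for a finite separable extension of function fields over an algebraically
closed field (`x'` any generator of `F'`). -/
theorem pushforwardNormFormula_of_isGen [Algebra F F'] [IsScalarTower K F F']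
    [FiniteDimensional F F'] [Algebra.IsSeparable F F'] {x' : F'} (hx' : IsGen K x') :
    Divisor.PushforwardNormFormula K F F' :=
  pushforwardNormFormula fun w => FF.deg_eq_one hx' w

/-- `Along` form of `pushforwardNormFormula_of_isGen`. -/
theorem normFormulaAlong_of_isGen (φ : F →ₐ[K] F') (hfin : FiniteAlong K φ)
    (hsep : SeparableAlong K φ) {x' : F'} (hx' : IsGen K x') : NormFormulaAlong K φ hfin :=
  normFormulaAlong φ hfin hsep fun w => FF.deg_eq_one hx' w

/-- `ord_v (N_{F'/F} f) = ∑_{w ∣ v} ord_w f`, `K` algebraically closed. -/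
theorem ord_norm_fiber_of_isGen [Algebra F F'] [IsScalarTower K F F']
    [FiniteDimensional F F'] [Algebra.IsSeparable F F'] {x' : F'} (hx' : IsGen K x')
    (v : Place K F) {f : F'} (hf : f ≠ 0) :
    v.ord (Algebra.norm F f) = ∑ᶠ w : {w : Place K F' // w.restrict F = v}, w.1.ord f :=
  ord_norm_fiber (fun w => FF.deg_eq_one hx' w) v hf

end AlgClosed

end Fermat.Agent.T1B.Hecke87.NormSep
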