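/-
Programme T1B (row 38 / S44), cell R2/BRANDT, helper87: the `Along` forms (Prelude vocabulary
`Place.restrictAlong`, `Place.ramificationIndexAlong`, `finrankAlong`) of `NormFormulaSep` and
`FundIdentitySep`, for a finite separable `K`-embedding `φ : F → F'` of function fields whose
places have degree one.

* `ord_normAlong_fiber` : `ord_v (N_φ f) = ∑ᶠ_{w, w|_φ = v} ord_w f`;
* `finite_fiberAlong`   : the fibre `{w | w.restrictAlong φ hφ = v}` is finite;
* `sum_ramificationIndexAlong` : `∑ᶠ_{w|_φ = v} e_φ(w) = finrankAlong K φ`;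
* `ncard_fiberAlong_of_unramified`.
-/
import Mathlib
import Fermat.Prelude.Def_AlgebraicCurve_Correspondence
import Fermat.Agent.T1B.Hecke87.NormFormulaSep
import Fermat.Agent.T1B.Hecke87.FundIdentitySep

set_option autoImplicit false
set_option linter.style.haveILetI false
set_option linter.unusedSectionVars false

open AlgebraicCurve

noncomputable section

namespace Fermat.Agent.T1B.Hecke87.NormAlongSep

open Fermat.Agent.X0 Fermat.Agent.X0.FF

variable {K F F' : Type*} [Field K] [Field F] [Field F'] [Algebra K F] [Algebra K F']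

/-- The norm along `φ`. -/
def normAlong (φ : F →ₐ[K] F') (f : F') : F :=
  letI := algebraAlong φ
  Algebra.norm F f

theorem normAlong_ne_zero (φ : F →ₐ[K] F') (hfin : FiniteAlong K φ) {f : F'} (hf : f ≠ 0) :
    normAlong φ f ≠ 0 := by
  letI := algebraAlong φ
  haveI : Module.Finite F F' := hfin
  exact Algebra.norm_ne_zero_iff.mpr hf

theorem normAlong_mul (φ : F →ₐ[K] F') (f g : F') :
    normAlong φ (f * g) = normAlong φ f * normAlong φ g := by
  letI := algebraAlong φ
  exact map_mul (Algebra.norm F) f g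

/-- The fibre of a place along `φ` is finite. -/
theorem finite_fiberAlong (φ : F →ₐ[K] F') (hφ : φ.toRingHom.IsIntegral)
    (hfin : FiniteAlong K φ) (hsep : SeparableAlong K φ) (v : Place K F) :
    Finite {w : Place K F' // w.restrictAlong φ hφ = v} := by
  letI := algebraAlong φ
  haveI := isScalarTower_along φ
  haveI : FiniteDimensional F F' := hfin
  haveI : Algebra.IsSeparable F F' := hsep
  exact NormSep.finite_fiber (F' := F') v

/-- **`ord_v (N_φ f) = ∑_{w ∣ v} ord_w f`** along `φ` (all places of `F'` of degree one). -/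
theorem ord_normAlong_fiber (φ : F →ₐ[K] F') (hφ : φ.toRingHom.IsIntegral)
    (hfin : FiniteAlong K φ) (hsep : SeparableAlong K φ)
    (hdeg' : ∀ w : Place K F', w.deg = 1) (v : Place K F) {f : F'} (hf : f ≠ 0) :
    v.ord (normAlong φ f) =
      ∑ᶠ w : {w : Place K F' // w.restrictAlong φ hφ = v}, w.1.ord f := by
  letI := algebraAlong φ
  haveI := isScalarTower_along φ
  haveI : FiniteDimensional F F' := hfin
  haveI : Algebra.IsSeparable F F' := hsep
  exact NormSep.ord_norm_fiber hdeg' v hf

/-- The same with the degree-one hypothesis discharged (`K` algebraically closed). -/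
theorem ord_normAlong_fiber_of_isGen [IsAlgClosed K] (φ : F →ₐ[K] F')
    (hφ : φ.toRingHom.IsIntegral) (hfin : FiniteAlong K φ) (hsep : SeparableAlong K φ)
    {x' : F'} (hx' : IsGen K x') (v : Place K F) {f : F'} (hf : f ≠ 0) :
    v.ord (normAlong φ f) =
      ∑ᶠ w : {w : Place K F' // w.restrictAlong φ hφ = v}, w.1.ord f :=
  ord_normAlong_fiber φ hφ hfin hsep (fun w => FF.deg_eq_one hx' w) v hf

/-- **`∑_{w ∣ v} e(w | v) = deg φ`** along `φ`. -/
theorem sum_ramificationIndexAlong (φ : F →ₐ[K] F') (hφ : φ.toRingHom.IsIntegral)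
    (hfin : FiniteAlong K φ) (hsep : SeparableAlong K φ)
    (hres : ∀ w : Place K F', ∀ f ∈ w.toValuationSubring,
      ∃ c : K, f = algebraMap K F' c ∨ 0 < w.ord (f - algebraMap K F' c))
    (v : Place K F) :
    {w : Place K F' | w.restrictAlong φ hφ = v}.Finite ∧
    ∑ᶠ w ∈ {w : Place K F' | w.restrictAlong φ hφ = v}, (w.ramificationIndexAlong φ : ℤ) =
      (finrankAlong K φ : ℤ) := by
  letI := algebraAlong φ
  haveI := isScalarTower_along φ
  haveI : FiniteDimensional F F' := hfin
  haveI : Algebra.IsSeparable F F' := hsep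
  exact FundSep.sum_ramificationIndex_set hres v

/-- `K` algebraically closed: the residue hypothesis is automatic. -/
theorem sum_ramificationIndexAlong_of_isGen [IsAlgClosed K] (φ : F →ₐ[K] F')
    (hφ : φ.toRingHom.IsIntegral) (hfin : FiniteAlong K φ) (hsep : SeparableAlong K φ)
    {x' : F'} (hx' : IsGen K x') (v : Place K F) :
    {w : Place K F' | w.restrictAlong φ hφ = v}.Finite ∧
    ∑ᶠ w ∈ {w : Place K F' | w.restrictAlong φ hφ = v}, (w.ramificationIndexAlong φ : ℤ) =
      (finrankAlong K φ : ℤ) :=
  sum_ramificationIndexAlong φ hφ hfin hsep (fun w _ hf => exists_ord_sub_pos hx' w hf) v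

/-- If `φ` is unramified over `v`, the fibre has `deg φ` elements. -/
theorem ncard_fiberAlong_of_unramified [IsAlgClosed K] (φ : F →ₐ[K] F')
    (hφ : φ.toRingHom.IsIntegral) (hfin : FiniteAlong K φ) (hsep : SeparableAlong K φ)
    {x' : F'} (hx' : IsGen K x') (v : Place K F)
    (hunr : ∀ w : Place K F', w.restrictAlong φ hφ = v → w.ramificationIndexAlong φ = 1) :
    {w : Place K F' | w.restrictAlong φ hφ = v}.ncard = finrankAlong K φ := by
  letI := algebraAlong φ
  haveI := isScalarTower_along φ
  haveI : FiniteDimensional F F' := hfin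
  haveI : Algebra.IsSeparable F F' := hsep
  exact FundSep.ncard_fiber_of_unramified (fun w f hf => exists_ord_sub_pos hx' w hf) v hunr

end Fermat.Agent.T1B.Hecke87.NormAlongSep
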