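/-
Programme T1B (row 38 / S44), cell R2/BRANDT, helper87: ABSTRACT TOOLS to prove `SeparableAlong`
and `FiniteAlong` for a `K`-algebra map `φ : E₁ → E₂` between two intermediate fields of an
ambient field `Ω` (Mathlib + Prelude only).

* `isSeparable_of_ambient` : `A → B` fields, `ι : B → Ω`, `S ⊆ Ω` a subfield contained in the image
  of `A`; if `ι y` is separable over `S` then `y` is separable over `A`;
* `separableAlong_of_ambient` : the `SeparableAlong K φ` form;
* `finiteAlong_of_separableAlong_of_fg` : separable (hence algebraic) + finitely generated ⟹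
  `FiniteAlong K φ`.
-/
import Mathlib
import Fermat.Prelude.Def_AlgebraicCurve_Correspondence

set_option autoImplicit false
set_option linter.style.haveILetI false
set_option linter.unusedSectionVars false

open AlgebraicCurve IntermediateField Polynomial

noncomputable section

namespace Fermat.Agent.T1B.Hecke87.SepAlong

/-- Separability over `A` from separability over a subfield `S` of an ambient field `Ω`, all of
whose elements come from `A`. -/
theorem isSeparable_of_ambient {K Ω A B : Type*} [Field K] [Field Ω] [Algebra K Ω]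
    [Field A] [Field B] [Algebra A B] (ι : B →+* Ω) (S : IntermediateField K Ω)
    (hS : ∀ s ∈ S, ∃ a : A, ι (algebraMap A B a) = s) (y : B)
    (hy : IsSeparable ↥S (ι y)) : IsSeparable A y := by
  set f : A →+* Ω := ι.comp (algebraMap A B) with hf
  set g := minpoly ↥S (ι y) with hg
  have hgsep : g.Separable := hy
  have hlift : g.map (algebraMap ↥S Ω) ∈ Polynomial.lifts f := by
    rw [Polynomial.lifts_iff_coeff_lifts]
    intro n
    rw [Polynomial.coeff_map]
    obtain ⟨a, ha⟩ := hS _ (g.coeff n).2
    exact ⟨a, ha⟩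
  obtain ⟨G, hG⟩ := (Polynomial.mem_lifts _).mp hlift
  have hGsep : G.Separable := by
    have h1 : (G.map f).Separable := by rw [hG]; exact hgsep.map
    exact (Polynomial.separable_map f).mp h1
  have hGy : Polynomial.aeval y G = 0 := by
    apply ι.injective
    rw [map_zero, Polynomial.aeval_def, Polynomial.hom_eval₂, ← hf, ← Polynomial.eval_map, hG,
      Polynomial.eval_map, ← Polynomial.aeval_def, hg, minpoly.aeval]
  exact hGsep.of_dvd (minpoly.dvd A y hGy)

variable {K Ω : Type*} [Field K] [Field Ω] [Algebra K Ω] {E₁ E₂ : IntermediateField K Ω}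

/-- `SeparableAlong K φ` for `φ : E₁ → E₂` between intermediate fields of `Ω`: it suffices that
every element of `E₂` is separable over a subfield `S ⊆ Ω` contained in the image of `E₁`. -/
theorem separableAlong_of_ambient (φ : E₁ →ₐ[K] E₂) (S : IntermediateField K Ω)
    (hS : ∀ s ∈ S, ∃ a : E₁, ((φ a : E₂) : Ω) = s)
    (hsep : ∀ y : E₂, IsSeparable ↥S (y : Ω)) : SeparableAlong K φ := by
  letI := algebraAlong φ
  show Algebra.IsSeparable ↥E₁ ↥E₂
  refine ⟨fun y => ?_⟩
  exact isSeparable_of_ambient (E₂.val : ↥E₂ →+* Ω) S hS y (hsep y)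

/-- A separable finitely generated field extension is finite. -/
theorem finiteAlong_of_separableAlong_of_fg (φ : E₁ →ₐ[K] E₂) (hsep : SeparableAlong K φ)
    (hfg : E₂.FG) : FiniteAlong K φ := by
  letI := algebraAlong φ
  haveI := isScalarTower_along φ
  haveI : Algebra.IsSeparable ↥E₁ ↥E₂ := hsep
  show Module.Finite ↥E₁ ↥E₂
  haveI : Algebra.EssFiniteType K ↥E₂ := IntermediateField.essFiniteType_iff.mpr hfg
  haveI : Algebra.EssFiniteType ↥E₁ ↥E₂ := Algebra.EssFiniteType.of_comp K ↥E₁ ↥E₂
  haveI : Algebra.IsAlgebraic ↥E₁ ↥E₂ := Algebra.IsSeparable.isAlgebraic ↥E₁ ↥E₂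
  exact Algebra.finite_of_essFiniteType_of_isAlgebraic

end Fermat.Agent.T1B.Hecke87.SepAlong
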