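/-
Programme T1B (row 38 / S44), cell R2/BRANDT (report 997, (R2)), helper87: THE DEGENERACY MAPS
`ᾱ, β̄ : k₁ → k₁'` IN CHARACTERISTIC `p`, `k₁ = modularFunctionFieldFullC k M`,
`k₁' = modularFunctionFieldFullC k (M * ℓ)`, `k` a perfect field of characteristic `p ∤ M ℓ`,
`ℓ` prime: finiteness, separability, degree, generators, and the norm formula / fundamental
identity along `ᾱ` and `β̄` (instances of `NormFormulaSep`, `FundIdentitySep`).

* `alphaC k M ℓ`, `betaC k M ℓ : ↥(FullC k M) →ₐ[k] ↥(FullC k (M * ℓ))` (inclusion, `q ↦ q^ℓ`);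
* `separableAlong_alphaC`, `separableAlong_betaC`, `finiteAlong_alphaC`, `finiteAlong_betaC`;
* `isGen_j` : `X0.FF.IsGen k (j : ↥(FullC k N))` (`p ∤ N`);
* `normFormulaAlong_alphaC`, `normFormulaAlong_betaC` (`k` algebraically closed);
* `finrankAlong_alphaC : finrankAlong k (alphaC k M ℓ) = ℓ + 1` (`ℓ ∤ M`).
-/
import Mathlib
import Fermat.Prelude.Def_ModularCurve_X0ModL
import Fermat.Prelude.Def_AlgebraicCurve_Correspondence
import Fermat.Agent.RED.PUR.DegBaseChange25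
import Fermat.Agent.RED.PUR.SepLaurent25
import Fermat.Agent.IG.VAL.OvBasics22
import Fermat.Agent.IG.PR.ThetaV1
import Fermat.Agent.IG.PR.LevelFinite10
import Fermat.Agent.X0.FFDefs
import Fermat.Agent.X0.FFConst
import Fermat.Agent.X0.GNPsi
import Fermat.Agent.IG.PR.Main20
import Fermat.Agent.IG.AN.ModPoly3
import Fermat.Agent.IG.AN.FormalJ10
import Fermat.Agent.IG.AN.P2Final9
import Fermat.Agent.T1B.Hecke87.SepAlong
import Fermat.Agent.T1B.Hecke87.NormFormulaSep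
import Fermat.Agent.T1B.Hecke87.FundIdentitySep
import Fermat.Agent.T1B.Hecke87.NormAlongSep
import Fermat.Agent.ES.RED.SpecialGen25

set_option autoImplicit false
set_option linter.style.haveILetI false
set_option linter.unusedSectionVars false

open AlgebraicCurve ModularCurve IntermediateField HahnSeries

noncomputable section

namespace Fermat.Agent.T1B.Hecke87.CharPX0

open Fermat.Agent.X0
open Fermat.Agent.IG
open Fermat.Agent.T1B.Hecke87.SepAlong

/-! ### the maps -/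

section Maps

variable (k : Type*) [Field k] (M ℓ : ℕ) [NeZero M] [NeZero ℓ]

/-- `ᾱ`: the inclusion `k(j(q^d) : d ∣ M) ⊆ k(j(q^d) : d ∣ M ℓ)`. -/
def alphaC : ↥(modularFunctionFieldFullC k M) →ₐ[k] ↥(modularFunctionFieldFullC k (M * ℓ)) :=
  IntermediateField.inclusion (full_degeneracyC_le k (dvd_mul_right M ℓ))

/-- `β̄`: `f(q) ↦ f(q^ℓ)`. -/
def betaC : ↥(modularFunctionFieldFullC k M) →ₐ[k] ↥(modularFunctionFieldFullC k (M * ℓ)) where
  toFun x := ⟨qExpand k ℓ (x : LaurentSeries k),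
    full_degeneracyC_map_le k M ℓ ⟨(x : LaurentSeries k), x.2, rfl⟩⟩
  map_one' := Subtype.ext (map_one (qExpand k ℓ))
  map_mul' _ _ := Subtype.ext (map_mul (qExpand k ℓ) _ _)
  map_zero' := Subtype.ext (map_zero (qExpand k ℓ))
  map_add' _ _ := Subtype.ext (map_add (qExpand k ℓ) _ _)
  commutes' c := Subtype.ext ((qExpandAlgHomC k ℓ).commutes c)

@[simp] theorem coe_alphaC (x : ↥(modularFunctionFieldFullC k M)) :
    ((alphaC k M ℓ x : ↥(modularFunctionFieldFullC k (M * ℓ))) : LaurentSeries k) = x :=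
  IntermediateField.coe_inclusion _ x

@[simp] theorem coe_betaC (x : ↥(modularFunctionFieldFullC k M)) :
    ((betaC k M ℓ x : ↥(modularFunctionFieldFullC k (M * ℓ))) : LaurentSeries k) =
      qExpand k ℓ (x : LaurentSeries k) := rfl

/-- `j` as an element of the level-`M` field. -/
def jC : ↥(modularFunctionFieldFullC k M) := ⟨jqModC k, jqModC_mem_full k M⟩

@[simp] theorem coe_jC : ((jC k M : ↥(modularFunctionFieldFullC k M)) : LaurentSeries k) =
    jqModC k := rfl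

end Maps

/-! ### algebraicity and separability inside `k((q))` -/

section CharP

variable (k : Type) [Field k] (p : ℕ) [Fact p.Prime] [CharP k p]

/-- `FullC k N` is finite over `k(j)` (`p ∤ N`), in `relfinrank` form. -/
theorem relfinrank_j_ne_zero (N : ℕ) [NeZero N] (hpN : ¬ p ∣ N) :
    relfinrank k⟮jqModC k⟯ (modularFunctionFieldFullC k N) ≠ 0 := by
  rw [RED.PUR.DegBaseChange25.relfinrank_fullC_eq_psi_of_charP p k N hpN]
  exact (GNPsi.gnp_dedekindPsi_pos (NeZero.ne N)).ne'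

theorem adjoin_j_le (N : ℕ) : k⟮jqModC k⟯ ≤ modularFunctionFieldFullC k N :=
  adjoin_simple_le_iff.mpr (jqModC_mem_full k N)

/-- Every element of `FullC k N` is integral over `k(j)` (`p ∤ N`). -/
theorem isIntegral_j (N : ℕ) [NeZero N] (hpN : ¬ p ∣ N) {y : LaurentSeries k}
    (hy : y ∈ modularFunctionFieldFullC k N) : IsIntegral k⟮jqModC k⟯ y :=
  PR.LevelFinite10.isIntegral_of_relfinrank_ne_zero (adjoin_j_le k N)
    (relfinrank_j_ne_zero k p N hpN) hy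

/-- `j` is integral over `k(j(q^ℓ))` (`ℓ` prime, invertible in `k`). -/
theorem isIntegral_j_over_jl (ℓ : ℕ) [NeZero ℓ] (hℓ : ℓ.Prime) (hℓk : (ℓ : k) ≠ 0) :
    IsIntegral k⟮qExpand k ℓ (jqModC k)⟯ (jqModC k) := by
  have h := (PR.Main20.primeLevel ℓ hℓ.two_le (AN.ModPoly3.p0 ℓ hℓ) AN.FormalJ10.p1
    (AN.P2Final9.p2 ℓ) k hℓk).2.2
  have hle : k⟮qExpand k ℓ (jqModC k)⟯ ≤ k⟮jqModC k⟯ ⊔ k⟮qExpand k ℓ (jqModC k)⟯ := le_sup_right
  have hne : relfinrank k⟮qExpand k ℓ (jqModC k)⟯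
      (k⟮jqModC k⟯ ⊔ k⟮qExpand k ℓ (jqModC k)⟯) ≠ 0 := by rw [h]; omega
  exact PR.LevelFinite10.isIntegral_of_relfinrank_ne_zero hle hne
    ((le_sup_left : k⟮jqModC k⟯ ≤ _) (mem_adjoin_simple_self k (jqModC k)))

/-- Every element of `FullC k N` is integral over `k(j(q^ℓ))`. -/
theorem isIntegral_jl (N : ℕ) [NeZero N] (hpN : ¬ p ∣ N) (ℓ : ℕ) [NeZero ℓ] (hℓ : ℓ.Prime)
    (hℓk : (ℓ : k) ≠ 0) {y : LaurentSeries k} (hy : y ∈ modularFunctionFieldFullC k N) :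
    IsIntegral k⟮qExpand k ℓ (jqModC k)⟯ y :=
  PR.LevelFinite10.isIntegral_trans_simple (isIntegral_j_over_jl k ℓ hℓ hℓk)
    (isIntegral_j k p N hpN hy)

variable [PerfectField k]

/-- Every element of `FullC k N` is separable over `k(j)`. -/
theorem isSeparable_j (N : ℕ) [NeZero N] (hpN : ¬ p ∣ N) {y : LaurentSeries k}
    (hy : y ∈ modularFunctionFieldFullC k N) : IsSeparable k⟮jqModC k⟯ y :=
  RED.PUR.SepLaurent25.isSeparable_of_isAlgebraic_of_order p (AN.ModPoly3.order_jqModC k)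
    (isIntegral_j k p N hpN hy).isAlgebraic

/-- Every element of `FullC k N` is separable over `k(j(q^ℓ))` (`ℓ ≠ p` prime). -/
theorem isSeparable_jl (N : ℕ) [NeZero N] (hpN : ¬ p ∣ N) (ℓ : ℕ) [NeZero ℓ] (hℓ : ℓ.Prime)
    (hℓk : (ℓ : k) ≠ 0) {y : LaurentSeries k} (hy : y ∈ modularFunctionFieldFullC k N) :
    IsSeparable k⟮qExpand k ℓ (jqModC k)⟯ y := by
  refine RED.PUR.SepLaurent25.isSeparable_of_isAlgebraic p ?_ ?_
    (isIntegral_jl k p N hpN ℓ hℓ hℓk hy).isAlgebraic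
  · exact PR.ThetaV1.qExpand_ne_zero ℓ (jqModC_ne_zero_of_nontrivial k)
  · rw [PR.ThetaV1.order_qExpand, AN.ModPoly3.order_jqModC, mul_neg, mul_one]
    have hne : ℓ ≠ p := by
      rintro rfl
      exact hℓk (CharP.cast_eq_zero k ℓ)
    have hcop : Nat.Coprime ℓ p := (Nat.coprime_primes hℓ (Fact.out : p.Prime)).mpr hne
    exact (Nat.isCoprime_iff_coprime.mpr hcop).neg_left

end CharP

/-! ### `ᾱ`, `β̄` are finite separable -/

section Along

variable (k : Type) [Field k] [PerfectField k] (p : ℕ) [Fact p.Prime] [CharP k p]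
  (M ℓ : ℕ) [NeZero M] [NeZero ℓ]

theorem fg_fullC (k : Type*) [Field k] (N : ℕ) [NeZero N] : (modularFunctionFieldFullC k N).FG :=
  IntermediateField.fg_adjoin_of_finite (PR.LevelFinite10.finite_gens (jqModC k) N)

/-- `k₁' / ᾱ(k₁)` is separable. -/
theorem separableAlong_alphaC (hp : ¬ p ∣ M * ℓ) : SeparableAlong k (alphaC k M ℓ) := by
  refine separableAlong_of_ambient (alphaC k M ℓ) k⟮jqModC k⟯ ?_ ?_
  · intro s hs
    exact ⟨⟨s, adjoin_j_le k M hs⟩, rfl⟩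
  · intro y
    exact isSeparable_j k p (M * ℓ) hp y.2

/-- `k₁' / β̄(k₁)` is separable (`ℓ ≠ p` prime). -/
theorem separableAlong_betaC (hp : ¬ p ∣ M * ℓ) (hℓ : ℓ.Prime) (hℓk : (ℓ : k) ≠ 0) :
    SeparableAlong k (betaC k M ℓ) := by
  refine separableAlong_of_ambient (betaC k M ℓ) k⟮qExpand k ℓ (jqModC k)⟯ ?_ ?_
  · intro s hs
    have hs' : s ∈ (k⟮jqModC k⟯).map (qExpandAlgHomC k ℓ) := by
      rw [IntermediateField.adjoin_map, Set.image_singleton]
      exact hs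
    obtain ⟨t, ht, rfl⟩ := hs'
    exact ⟨⟨t, adjoin_j_le k M ht⟩, rfl⟩
  · intro y
    exact isSeparable_jl k p (M * ℓ) hp ℓ hℓ hℓk y.2

/-- `k₁'` is finite over `ᾱ(k₁)`. -/
theorem finiteAlong_alphaC (hp : ¬ p ∣ M * ℓ) : FiniteAlong k (alphaC k M ℓ) :=
  finiteAlong_of_separableAlong_of_fg _ (separableAlong_alphaC k p M ℓ hp) (fg_fullC k (M * ℓ))

/-- `k₁'` is finite over `β̄(k₁)`. -/
theorem finiteAlong_betaC (hp : ¬ p ∣ M * ℓ) (hℓ : ℓ.Prime) (hℓk : (ℓ : k) ≠ 0) :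
    FiniteAlong k (betaC k M ℓ) :=
  finiteAlong_of_separableAlong_of_fg _ (separableAlong_betaC k p M ℓ hp hℓ hℓk)
    (fg_fullC k (M * ℓ))

end Along

/-! ### the degree of `ᾱ` -/

section Degree

variable (k : Type) [Field k] (p : ℕ) [Fact p.Prime] [CharP k p]
  (M ℓ : ℕ) [NeZero M] [NeZero ℓ]

theorem dedekindPsi_mul_prime (hℓ : ℓ.Prime) (hℓM : ¬ ℓ ∣ M) :
    dedekindPsi (M * ℓ) = dedekindPsi M * (ℓ + 1) := by
  have hcop : M.Coprime ℓ := ((Nat.Prime.coprime_iff_not_dvd hℓ).mpr hℓM).symm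
  rw [GNPsi.gnp_dedekindPsi_mul hcop]
  have h := GNPsi.gnp_dedekindPsi_prime_pow hℓ 0
  rw [zero_add, pow_one, pow_zero] at h
  rw [h]

/-- `[k₁' : k₁] = ℓ + 1` in `relfinrank` form. -/
theorem relfinrank_fullC_mul_prime (hp : ¬ p ∣ M * ℓ) (hℓ : ℓ.Prime) (hℓM : ¬ ℓ ∣ M) :
    relfinrank (modularFunctionFieldFullC k M) (modularFunctionFieldFullC k (M * ℓ)) = ℓ + 1 := by
  have hpM : ¬ p ∣ M := fun h => hp (h.mul_right ℓ)
  have h1 := RED.PUR.DegBaseChange25.relfinrank_fullC_eq_psi_of_charP p k M hpM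
  have h2 := RED.PUR.DegBaseChange25.relfinrank_fullC_eq_psi_of_charP p k (M * ℓ) hp
  have h3 := relfinrank_mul_relfinrank (adjoin_j_le k M)
    (full_degeneracyC_le k (dvd_mul_right M ℓ))
  rw [h1, h2, dedekindPsi_mul_prime M ℓ hℓ hℓM] at h3
  exact Nat.eq_of_mul_eq_mul_left (GNPsi.gnp_dedekindPsi_pos (NeZero.ne M)) h3

/-- **`deg ᾱ = ℓ + 1`.** -/
theorem finrankAlong_alphaC (hp : ¬ p ∣ M * ℓ) (hℓ : ℓ.Prime) (hℓM : ¬ ℓ ∣ M) :
    finrankAlong k (alphaC k M ℓ) = ℓ + 1 := by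
  rw [← relfinrank_fullC_mul_prime k p M ℓ hp hℓ hℓM,
    relfinrank_eq_finrank_of_le (full_degeneracyC_le k (dvd_mul_right M ℓ))]
  rfl

end Degree

/-! ### generators and the final statements (`k` algebraically closed) -/

section Final

variable (k : Type) [Field k] (p : ℕ) [Fact p.Prime] [CharP k p]

/-- `j` is a (separating) generator of `FullC k N` (`p ∤ N`). -/
theorem isGen_jC (N : ℕ) [NeZero N] (hpN : ¬ p ∣ N) : FF.IsGen k (jC k N) :=
  Fermat.Agent.ES.RED.SpecialGen25.isGen_of_relfinrank_ne_zero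
    (modularFunctionFieldFullC k N) (jC k N) (VAL.OvBasics22.transcendental_jqModC k)
    (relfinrank_j_ne_zero k p N hpN)

variable [IsAlgClosed k] (M ℓ : ℕ) [NeZero M] [NeZero ℓ]

theorem isIntegral_alphaC (hp : ¬ p ∣ M * ℓ) : (alphaC k M ℓ).toRingHom.IsIntegral :=
  Fermat.Agent.ES.HECKE.FundIdentity19.isIntegral_of_finiteAlong _ (finiteAlong_alphaC k p M ℓ hp)

theorem isIntegral_betaC (hp : ¬ p ∣ M * ℓ) (hℓ : ℓ.Prime) (hℓk : (ℓ : k) ≠ 0) :
    (betaC k M ℓ).toRingHom.IsIntegral :=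
  Fermat.Agent.ES.HECKE.FundIdentity19.isIntegral_of_finiteAlong _
    (finiteAlong_betaC k p M ℓ hp hℓ hℓk)

/-- **The norm formula along `ᾱ`** (Prelude shape). -/
theorem normFormulaAlong_alphaC (hp : ¬ p ∣ M * ℓ) :
    NormFormulaAlong k (alphaC k M ℓ) (finiteAlong_alphaC k p M ℓ hp) :=
  NormSep.normFormulaAlong_of_isGen _ _ (separableAlong_alphaC k p M ℓ hp)
    (isGen_jC k p (M * ℓ) hp)

/-- **The norm formula along `β̄`** (Prelude shape). -/
theorem normFormulaAlong_betaC (hp : ¬ p ∣ M * ℓ) (hℓ : ℓ.Prime) (hℓk : (ℓ : k) ≠ 0) :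
    NormFormulaAlong k (betaC k M ℓ) (finiteAlong_betaC k p M ℓ hp hℓ hℓk) :=
  NormSep.normFormulaAlong_of_isGen _ _ (separableAlong_betaC k p M ℓ hp hℓ hℓk)
    (isGen_jC k p (M * ℓ) hp)

/-- **(R2)(c)**: `ord_e (N_ᾱ g) = ∑_{x' ∣ e} ord_{x'} g`. -/
theorem ord_normAlong_alphaC (hp : ¬ p ∣ M * ℓ) (e : Place k ↥(modularFunctionFieldFullC k M))
    {g : ↥(modularFunctionFieldFullC k (M * ℓ))} (hg : g ≠ 0) :
    e.ord (NormAlongSep.normAlong (alphaC k M ℓ) g) =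
      ∑ᶠ w : {w : Place k ↥(modularFunctionFieldFullC k (M * ℓ)) //
        w.restrictAlong (alphaC k M ℓ) (isIntegral_alphaC k p M ℓ hp) = e}, w.1.ord g :=
  NormAlongSep.ord_normAlong_fiber_of_isGen _ _ (finiteAlong_alphaC k p M ℓ hp)
    (separableAlong_alphaC k p M ℓ hp) (isGen_jC k p (M * ℓ) hp) e hg

/-- `ord_{x'} (β̄ g) = e_β̄(x') · ord_{β̄ x'} g`. -/
theorem ord_betaC (hp : ¬ p ∣ M * ℓ) (hℓ : ℓ.Prime) (hℓk : (ℓ : k) ≠ 0)
    (w : Place k ↥(modularFunctionFieldFullC k (M * ℓ))) (g : ↥(modularFunctionFieldFullC k M)) :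
    w.ord (betaC k M ℓ g) = (w.ramificationIndexAlong (betaC k M ℓ) : ℤ) *
      (w.restrictAlong (betaC k M ℓ) (isIntegral_betaC k p M ℓ hp hℓ hℓk)).ord g :=
  Place.ord_restrictAlong _ _ w g

/-- **The local degree formula along `ᾱ`**: `∑_{x' ∣ e} e(x' | e) = ℓ + 1`. -/
theorem sum_ramificationIndexAlong_alphaC (hp : ¬ p ∣ M * ℓ) (hℓ : ℓ.Prime) (hℓM : ¬ ℓ ∣ M)
    (e : Place k ↥(modularFunctionFieldFullC k M)) :
    {w : Place k ↥(modularFunctionFieldFullC k (M * ℓ)) |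
      w.restrictAlong (alphaC k M ℓ) (isIntegral_alphaC k p M ℓ hp) = e}.Finite ∧
    ∑ᶠ w ∈ {w : Place k ↥(modularFunctionFieldFullC k (M * ℓ)) |
      w.restrictAlong (alphaC k M ℓ) (isIntegral_alphaC k p M ℓ hp) = e},
        (w.ramificationIndexAlong (alphaC k M ℓ) : ℤ) = (ℓ : ℤ) + 1 := by
  have h := NormAlongSep.sum_ramificationIndexAlong_of_isGen (alphaC k M ℓ)
    (isIntegral_alphaC k p M ℓ hp) (finiteAlong_alphaC k p M ℓ hp)
    (separableAlong_alphaC k p M ℓ hp) (isGen_jC k p (M * ℓ) hp) e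
  rw [finrankAlong_alphaC k p M ℓ hp hℓ hℓM] at h
  exact_mod_cast h

/-- If `ᾱ` is unramified over `e`, there are exactly `ℓ + 1` places over `e`. -/
theorem ncard_fiberAlong_alphaC (hp : ¬ p ∣ M * ℓ) (hℓ : ℓ.Prime) (hℓM : ¬ ℓ ∣ M)
    (e : Place k ↥(modularFunctionFieldFullC k M))
    (hunr : ∀ w : Place k ↥(modularFunctionFieldFullC k (M * ℓ)),
      w.restrictAlong (alphaC k M ℓ) (isIntegral_alphaC k p M ℓ hp) = e →
        w.ramificationIndexAlong (alphaC k M ℓ) = 1) :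
    {w : Place k ↥(modularFunctionFieldFullC k (M * ℓ)) |
      w.restrictAlong (alphaC k M ℓ) (isIntegral_alphaC k p M ℓ hp) = e}.ncard = ℓ + 1 := by
  rw [NormAlongSep.ncard_fiberAlong_of_unramified (alphaC k M ℓ)
    (isIntegral_alphaC k p M ℓ hp) (finiteAlong_alphaC k p M ℓ hp)
    (separableAlong_alphaC k p M ℓ hp) (isGen_jC k p (M * ℓ) hp) e hunr,
    finrankAlong_alphaC k p M ℓ hp hℓ hℓM]

end Final

end Fermat.Agent.T1B.Hecke87.CharPX0
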