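/-
Programme T1B (row 38 / S44), cell R2/BRANDT, helper87: `HasPrincipalDivisors` IN ANY
CHARACTERISTIC, abstract part.

`F / K` a function field over an algebraically closed field.  An element `y` with a principal
divisor of degree zero: `HasDiv K y`.
* `hasDiv_of_sep` : a transcendental generator `y` with `F / K(y)` separable has one
  (`ES/RED/SumOrdSep15`: zeros and poles both sum to `[F : K(y)]`);
* `HasDiv.div`    : quotients;
* `hasPrincipalDivisors_of_forall_hasDiv`.
-/
import Mathlib
import Fermat.Prelude.Def_AlgebraicCurve_DivisorClassGroup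
import Fermat.Agent.X0.FFConst
import Fermat.Agent.ES.RED.SumOrdSep15

set_option autoImplicit false
set_option linter.style.haveILetI false
set_option linter.unusedSectionVars false

open AlgebraicCurve IntermediateField

noncomputable section

namespace Fermat.Agent.T1B.Hecke87.HPDSep

open Fermat.Agent.X0 Fermat.Agent.X0.FF Fermat.Agent.ES.RED.SumOrdSep15

variable {K F : Type*} [Field K] [Field F] [Algebra K F]

variable (K) in
/-- `y` has a principal divisor of degree zero. -/
def HasDiv (y : F) : Prop :=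
  ∃ D : Divisor K F, (∀ v : Place K F, D v = v.ord y) ∧ Divisor.degree D = 0

theorem HasDiv.div {y₁ y₂ : F} (h₁ : HasDiv K y₁) (h₂ : HasDiv K y₂) (hy₁ : y₁ ≠ 0)
    (hy₂ : y₂ ≠ 0) : HasDiv K (y₁ / y₂) := by
  obtain ⟨D₁, hD₁, hd₁⟩ := h₁
  obtain ⟨D₂, hD₂, hd₂⟩ := h₂
  refine ⟨D₁ - D₂, fun v => ?_, by rw [map_sub, hd₁, hd₂, sub_zero]⟩
  rw [Finsupp.sub_apply, hD₁, hD₂, div_eq_mul_inv, v.ord_mul hy₁ (inv_ne_zero hy₂), v.ord_inv,
    sub_eq_add_neg]

theorem hasPrincipalDivisors_of_forall_hasDiv (h : ∀ f : F, f ≠ 0 → HasDiv K f) :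
    HasPrincipalDivisors K F :=
  ⟨fun f hf => h f hf⟩

variable [IsAlgClosed K]

/-- The degree of a divisor when all places have degree one. -/
theorem degree_eq_sum {x : F} (hx : IsGen K x) (D : Divisor K F) :
    Divisor.degree D = ∑ v ∈ D.support, D v := by
  rw [Divisor.degree, Finsupp.liftAddHom_apply, Finsupp.sum]
  refine Finset.sum_congr rfl fun v _ => ?_
  simp [deg_eq_one hx v]

/-- A separating transcendental generator has a principal divisor of degree zero. -/
theorem hasDiv_of_sep {y : F} (hy : IsGen K y) [Algebra.IsSeparable K⟮y⟯ F] : HasDiv K y := by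
  classical
  have hzf := finite_zeros_sep hy
  have hpf := finite_poles_sep hy
  have hz := sum_ord_zeros_sep hy
  have hp := sum_ord_poles_sep hy
  have hsupp : {v : Place K F | v.ord y ≠ 0}.Finite := by
    refine (hzf.union hpf).subset fun v hv => ?_
    simp only [Set.mem_ofPred_eq, Set.mem_union] at hv ⊢
    rcases lt_or_gt_of_ne hv with h | h
    · exact Or.inr h
    · exact Or.inl h
  let D : Divisor K F := Finsupp.ofSupportFinite (fun v => v.ord y)
    (hsupp.subset fun v hv => by simpa [Function.mem_support] using hv)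
  have hD : ∀ v, D v = v.ord y := fun v => rfl
  refine ⟨D, hD, ?_⟩
  rw [degree_eq_sum hy]
  have hz' : ∑ᶠ (v : Place K F) (_ : 0 < v.ord y), v.ord y
      = ∑ v ∈ D.support, (if 0 < v.ord y then v.ord y else 0) := by
    show ∑ᶠ (v : Place K F) (_ : v ∈ {v : Place K F | 0 < v.ord y}), v.ord y = _
    rw [finsum_mem_eq_finite_toFinset_sum _ hzf, Finset.sum_ite, Finset.sum_const_zero,
      add_zero]
    refine Finset.sum_congr ?_ fun _ _ => rfl
    ext v
    simp only [Set.Finite.mem_toFinset, Set.mem_ofPred_eq, Finset.mem_filter,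
      Finsupp.mem_support_iff, hD v]
    exact ⟨fun h => ⟨ne_of_gt h, h⟩, fun h => h.2⟩
  have hp' : ∑ᶠ (v : Place K F) (_ : v.ord y < 0), -v.ord y
      = ∑ v ∈ D.support, (if v.ord y < 0 then -v.ord y else 0) := by
    show ∑ᶠ (v : Place K F) (_ : v ∈ {v : Place K F | v.ord y < 0}), -v.ord y = _
    rw [finsum_mem_eq_finite_toFinset_sum _ hpf, Finset.sum_ite, Finset.sum_const_zero,
      add_zero]
    refine Finset.sum_congr ?_ fun _ _ => rfl
    ext v
    simp only [Set.Finite.mem_toFinset, Set.mem_ofPred_eq, Finset.mem_filter,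
      Finsupp.mem_support_iff, hD v]
    exact ⟨fun h => ⟨ne_of_lt h, h⟩, fun h => h.2⟩
  have hsplit : ∑ v ∈ D.support, D v
      = ∑ v ∈ D.support, (if 0 < v.ord y then v.ord y else 0)
        - ∑ v ∈ D.support, (if v.ord y < 0 then -v.ord y else 0) := by
    rw [← Finset.sum_sub_distrib]
    refine Finset.sum_congr rfl fun v _ => ?_
    rw [hD v]
    split_ifs <;> omega
  rw [hsplit, ← hz', ← hp', hz, hp, sub_self]

end Fermat.Agent.T1B.Hecke87.HPDSep
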