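/-
Programme T1B (row 38 / S44), cell R2/BRANDT, helper87: `HasPrincipalDivisors` FOR FUNCTION FIELDS
INSIDE `k((q))` IN CHARACTERISTIC `p`, and for `modularFunctionFieldFullC k N` (`p ∤ N`).

`k` algebraically closed of characteristic `p`, `E ⊆ k((q))` an intermediate field with a generator
`x : E` (`X0.FF.IsGen k x`) of `q`-order `-1`.  Every `y : E` whose `q`-order is prime to `p` is a
SEPARATING transcendental generator (`RED/PUR/SepLaurent25`), so it has a principal divisor of degree
zero (`HPDSep.hasDiv_of_sep`); every nonzero `f : E` is `f` or `(f x) / x` with numerator and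
denominator of order prime to `p`.

* `hasPrincipalDivisors_laurent`;
* `hasPrincipalDivisors_fullC : HasPrincipalDivisors k ↥(modularFunctionFieldFullC k N)`.
-/
import Mathlib
import Fermat.Agent.T1B.Hecke87.HPDSep
import Fermat.Agent.T1B.Hecke87.SepAlong
import Fermat.Agent.T1B.Hecke87.CharPX0
import Fermat.Agent.RED.PUR.SepLaurent25
import Fermat.Agent.ES.RED.SpecialGen25
import Fermat.Agent.IG.PR.LevelFinite10

set_option autoImplicit false
set_option linter.style.haveILetI false
set_option linter.unusedSectionVars false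

open AlgebraicCurve IntermediateField HahnSeries ModularCurve

noncomputable section

namespace Fermat.Agent.T1B.Hecke87.HPDCharP

open Fermat.Agent.X0 Fermat.Agent.X0.FF Fermat.Agent.T1B.Hecke87.HPDSep
open Fermat.Agent.ES.RED Fermat.Agent.RED.PUR

section Laurent

variable {k : Type*} [Field k] [IsAlgClosed k] (p : ℕ) [Fact p.Prime] [CharP k p]
  (E : IntermediateField k (LaurentSeries k))

/-- An element of nonzero `q`-order is transcendental over `k`. -/
theorem transcendental_of_order_ne_zero {y : ↥E} (hy : (y : LaurentSeries k).order ≠ 0) :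
    Transcendental k y := by
  intro halg
  obtain ⟨c, hc⟩ := eq_algebraMap_of_isAlgebraic halg
  apply hy
  have h1 : (y : LaurentSeries k) = algebraMap k (LaurentSeries k) c := by
    rw [hc]
    rfl
  rw [h1, algebraMap_laurentSeries_eq_single]
  exact HahnSeries.order_C

/-- A generator of `q`-order prime to `p` is separating. -/
theorem isSeparable_of_order {y : ↥E} (hy : IsGen k y)
    (hcop : IsCoprime (y : LaurentSeries k).order (p : ℤ)) :
    Algebra.IsSeparable ↥(k⟮y⟯ : IntermediateField k ↥E) ↥E := by
  have hy0 : (y : LaurentSeries k) ≠ 0 := by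
    intro h0
    exact hy.ne_zero (Subtype.ext h0)
  have hfd : FiniteDimensional ↥(k⟮y⟯ : IntermediateField k ↥E) ↥E := hy.finite
  have hrel : relfinrank k⟮(y : LaurentSeries k)⟯ E ≠ 0 := by
    rw [← SpecialGen25.finrank_adjoin_simple_eq_relfinrank]
    exact (Module.finrank_pos).ne'
  refine ⟨fun z => ?_⟩
  refine SepAlong.isSeparable_of_ambient (E.val : ↥E →+* LaurentSeries k)
    k⟮(y : LaurentSeries k)⟯ ?_ z ?_
  · intro s hs
    have hsE : s ∈ E := SpecialGen25.adjoin_simple_le E y hs
    exact ⟨⟨⟨s, hsE⟩, (SpecialGen25.mem_adjoin_simple_iff_coe E y ⟨s, hsE⟩).mpr hs⟩, rfl⟩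
  · refine SepLaurent25.isSeparable_of_isAlgebraic p hy0 hcop ?_
    exact (Fermat.Agent.IG.PR.LevelFinite10.isIntegral_of_relfinrank_ne_zero
      (SpecialGen25.adjoin_simple_le E y) hrel z.2).isAlgebraic

variable {E}

/-- An element of `q`-order prime to `p` has a principal divisor of degree zero. -/
theorem hasDiv_of_order {x : ↥E} (hx : IsGen k x) {y : ↥E}
    (hcop : IsCoprime (y : LaurentSeries k).order (p : ℤ)) : HasDiv k y := by
  have hord : (y : LaurentSeries k).order ≠ 0 := by
    intro h0
    rw [h0] at hcop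
    have h1 : IsUnit (p : ℤ) := isCoprime_zero_left.mp hcop
    have h2 := Int.isUnit_iff.mp h1
    have hp2 : 2 ≤ p := (Fact.out : p.Prime).two_le
    omega
  have hy : IsGen k y := hx.of_transcendental (transcendental_of_order_ne_zero E hord)
  haveI := isSeparable_of_order p E hy hcop
  exact hasDiv_of_sep hy

include p in
/-- **`HasPrincipalDivisors` for function fields inside `k((q))`** (`k` algebraically closed of
characteristic `p`) with a generator of `q`-order `-1`. -/
theorem hasPrincipalDivisors_laurent {x : ↥E} (hx : IsGen k x)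
    (hxo : (x : LaurentSeries k).order = -1) : HasPrincipalDivisors k ↥E := by
  refine hasPrincipalDivisors_of_forall_hasDiv fun f hf => ?_
  have hp2 : 2 ≤ p := (Fact.out : p.Prime).two_le
  have hpZ : Prime (p : ℤ) := Nat.prime_iff_prime_int.mp (Fact.out : p.Prime)
  have hf0 : (f : LaurentSeries k) ≠ 0 := fun h => hf (Subtype.ext h)
  have hx0 : (x : LaurentSeries k) ≠ 0 := fun h => hx.ne_zero (Subtype.ext h)
  by_cases hdiv : (p : ℤ) ∣ (f : LaurentSeries k).order
  · -- `f = (f x) / x`
    have hcx : IsCoprime (x : LaurentSeries k).order (p : ℤ) := by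
      rw [hxo]
      exact (isCoprime_one_left (x := (p : ℤ))).neg_left
    have hfx : ((f * x : ↥E) : LaurentSeries k).order = (f : LaurentSeries k).order - 1 := by
      rw [MulMemClass.coe_mul, HahnSeries.order_mul hf0 hx0, hxo]
      ring
    have hcfx : IsCoprime ((f * x : ↥E) : LaurentSeries k).order (p : ℤ) := by
      rw [hfx, isCoprime_comm]
      refine (Prime.coprime_iff_not_dvd hpZ).mpr fun h => ?_
      have h1 : (p : ℤ) ∣ 1 := by
        have := dvd_sub hdiv h
        simpa using this
      have h2 := Int.isUnit_iff.mp (isUnit_of_dvd_one h1)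
      omega
    have h1 := hasDiv_of_order p hx hcfx
    have h2 := hasDiv_of_order p hx hcx
    have hfx0 : f * x ≠ 0 := mul_ne_zero hf hx.ne_zero
    have := h1.div h2 hfx0 hx.ne_zero
    rwa [mul_div_assoc, div_self hx.ne_zero, mul_one] at this
  · refine hasDiv_of_order p hx ?_
    rw [isCoprime_comm]
    exact (Prime.coprime_iff_not_dvd hpZ).mpr hdiv

end Laurent

section FullC

variable (k : Type) [Field k] [IsAlgClosed k] (p : ℕ) [Fact p.Prime] [CharP k p]

/-- **`HasPrincipalDivisors k (FullC k N)`** in characteristic `p ∤ N`. -/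
theorem hasPrincipalDivisors_fullC (N : ℕ) [NeZero N] (hpN : ¬ p ∣ N) :
    HasPrincipalDivisors k ↥(modularFunctionFieldFullC k N) :=
  hasPrincipalDivisors_laurent p (CharPX0.isGen_jC k p N hpN)
    (Fermat.Agent.IG.AN.ModPoly3.order_jqModC k)

end FullC

end Fermat.Agent.T1B.Hecke87.HPDCharP
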