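/-
T1B / F8' HECKE-N (brick 528, sub-lead helper3), slice S4a 'DELTA-INPUTS-X0' (helper87).

The inputs `Hecke3.DeltaInputs A e p` of the `q`-dlog map `delta` for the function field
`FF N = ↥(modularFunctionFieldBar N)` of `X₀(N)` over `Kbar = AlgebraicClosure ℚ`:

* `const_of_ord_eq_zero`   (I1): a nonzero function without zeros and poles is a constant;
* `iotaHom`, `iota_const`  (I2): the `q`-expansion `FF N →+* Kbar((q))` and its value on constants;
* `deltaInputs_iota`       (I3): `DeltaInputs A (iotaHom N) p` from the normalisability input (slice S3);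
* `deltaInputs_of_hom`     (I4): the same for any expansion `W : FF N →+* Kbar((q))` fixing the
                                 constants.
-/
import Mathlib
import Fermat.Agent.T1B.Hecke3.Delta
import Fermat.Agent.RED.TOP.FbarFacts20
import Fermat.Agent.RED.TOP.ConstViaR20

set_option autoImplicit false
set_option linter.unusedSectionVars false

noncomputable section

namespace Fermat.Agent.T1B.Hecke87

open HahnSeries ModularCurve AlgebraicCurve
open Fermat.Agent.X0 Fermat.Agent.X0.FF Fermat.Agent.RED.TOP Fermat.Agent.T1B.Hecke3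

variable (N : ℕ) [NeZero N]

/-- **(I1)** A nonzero modular function of level `N` without zeros and poles is a constant. -/
theorem const_of_ord_eq_zero (f : FF N) (_hf : f ≠ 0)
    (h : ∀ v : Place Kbar (FF N), v.ord f = 0) : ∃ c : Kbar, f = algebraMap Kbar (FF N) c := by
  obtain ⟨v₀⟩ := FbarFacts20.nonempty_place_bar N
  have hmem : ∀ v : Place Kbar (FF N), f ∈ v.toValuationSubring := fun v =>
    ffp_mem_of_ord_nonneg v (by rw [h v])
  obtain ⟨c, hc | hc⟩ :=
    ConstViaR20.exists_const_of_deg_eq_one v₀ (FbarFacts20.deg_eq_one_bar N v₀) (hmem v₀)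
  · exact ⟨c, hc⟩
  · exfalso
    have hg : f - algebraMap Kbar (FF N) c ≠ 0 := by
      intro h0
      rw [h0, Place.ord_zero] at hc
      exact lt_irrefl _ hc
    obtain ⟨D, hD, hdeg⟩ := FbarFacts20.exists_divisor_bar N hg
    have hnonneg : ∀ v : Place Kbar (FF N), 0 ≤ D v := by
      intro v
      rw [hD v]
      apply ffp_ord_nonneg_of_mem
      exact sub_mem (hmem v) (v.algebraMap_mem' c)
    have h0 := ConstViaR20.eq_zero_of_nonneg_of_degree_eq_zero D hnonneg hdeg v₀
      (FbarFacts20.deg_eq_one_bar N v₀)
    rw [hD v₀] at h0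
    rw [h0] at hc
    exact lt_irrefl _ hc

/-- **(I2)** The `q`-expansion at `∞` as a ring homomorphism. -/
def iotaHom : FF N →+* LaurentSeries Kbar :=
  ((modularFunctionFieldBar N).val : FF N →+* LaurentSeries Kbar)

@[simp] theorem iotaHom_apply (f : FF N) : iotaHom N f = (f : LaurentSeries Kbar) := rfl

theorem iotaHom_injective : Function.Injective (iotaHom N) := Subtype.val_injective

/-- **(I2)** The expansion of a constant is the constant series. -/
theorem iota_const (c : Kbar) : iotaHom N (algebraMap Kbar (FF N) c) = HahnSeries.C c := by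
  show algebraMap Kbar (LaurentSeries Kbar) c = _
  rw [algebraMap_laurentSeries_eq_single, HahnSeries.C_apply]

/-- **(I4)** `DeltaInputs` for any expansion which is the identity on the constants. -/
theorem deltaInputs_of_hom (A : ValuationSubring Kbar) (p : ℕ) [hp : CharP (Kap A) p]
    (W : FF N →+* LaurentSeries Kbar)
    (hW : ∀ c : Kbar, W (algebraMap Kbar (FF N) c) = HahnSeries.C c)
    (hnorm : ∀ f : FF N, f ≠ 0 → Normalisable A (W f)) : DeltaInputs A W p where
  norm := hnorm
  const := const_of_ord_eq_zero N
  e_const := hW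
  charP := hp

/-- **(I3)** `DeltaInputs` for the expansion at `∞`. -/
theorem deltaInputs_iota (A : ValuationSubring Kbar) (p : ℕ) [CharP (Kap A) p]
    (hnorm : ∀ f : FF N, f ≠ 0 → Normalisable A (iotaHom N f)) :
    DeltaInputs A (iotaHom N) p :=
  deltaInputs_of_hom N A p (iotaHom N) (iota_const N) hnorm

end Fermat.Agent.T1B.Hecke87
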