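/-
T1B / F8' HECKE-N (brick 528, sub-lead helper3), slice S4a 'DELTA-INPUTS-X0', part 3 (helper87):
the two `DeltaInputs` of the design, UNCONDITIONALLY.

* `deltaInputs₁`  : side 1, `e₁ =` the `q`-expansion at `∞` (`Hecke87.iotaHom N`, and
                    `deltaInputs₁'` for helper3's `Hecke3.iotaHom N`); normalisability =
                    `Gauss95.normalisable_coe` (helper95);
* `deltaInputs₂`  : side 2, `e₂ = W_p = ALP90.AL1.Wp M p hp hpM` (helper20) on `FF (M p)`;
                    normalisability = `ALP95.Bridge.normalisable_Wp` (helper95).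
-/
import Mathlib
import Fermat.Agent.T1B.Hecke87.InputsX0
import Fermat.Agent.T1B.Hecke3.DeltaX0
import Fermat.Agent.T1B.Gauss95.Main
import Fermat.Agent.T1B.ALP95.Bridge

set_option autoImplicit false
set_option linter.unusedSectionVars false

noncomputable section

namespace Fermat.Agent.T1B.Hecke87

open HahnSeries ModularCurve AlgebraicCurve
open Fermat.Agent.X0 Fermat.Agent.T1B.Hecke3

/-- The two names of the `q`-expansion at `∞` agree. -/
theorem iotaHom_eq (N : ℕ) [NeZero N] : iotaHom N = Hecke3.iotaHom N := rfl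

/-- **Side 1**: `DeltaInputs` for the `q`-expansion at `∞`, unconditionally. -/
theorem deltaInputs₁ (N : ℕ) [NeZero N] (A : ValuationSubring Kbar) (p : ℕ) [CharP (Kap A) p] :
    DeltaInputs A (iotaHom N) p :=
  deltaInputs_iota N A p fun f hf => Fermat.Agent.T1B.Gauss95.normalisable_coe A N f hf

/-- **Side 1**, for `Hecke3.iotaHom`. -/
theorem deltaInputs₁' (N : ℕ) [NeZero N] (A : ValuationSubring Kbar) (p : ℕ)
    [CharP (Kap A) p] : DeltaInputs A (Hecke3.iotaHom N) p :=
  deltaInputs₁ N A p

/-- **Side 2**: `DeltaInputs` for the second expansion `W_p` of `FF (M p)`, unconditionally. -/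
theorem deltaInputs₂ (M p : ℕ) [NeZero M] [NeZero p] (hp : p.Prime) (hpM : ¬ p ∣ M)
    (A : ValuationSubring Kbar) (r : ℕ) [CharP (Kap A) r] :
    DeltaInputs A (Fermat.Agent.T1B.ALP90.AL1.Wp M p hp hpM) r :=
  deltaInputs_of_hom (M * p) A r _ (Fermat.Agent.T1B.ALP90.AL1.Wp_const M p hp hpM)
    (Fermat.Agent.T1B.ALP95.Bridge.normalisable_Wp M p hp hpM A)

end Fermat.Agent.T1B.Hecke87
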