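/-
T1B / F8' HECKE-N (brick 528, sub-lead helper3), slice S4a 'DELTA-INPUTS-X0', part 2 (helper87).

* `exists_W_const`          (I4'): the second expansion `W : FF (N ℓ) →+* Kbar((q))` of
                                   `ES.KRON.Conjugates11.exists_W` fixes the constants; hence
                                   `deltaInputs_W`;
* `heckeOperatorAlong_mk_bar`, `heckeOperatorBar_mk_bar` (I5): unconditional unfolding of the
                                   Prelude's `T_ℓ` (`ℓ ∤ N` prime) on a divisor class, with EXPLICIT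
                                   proof terms for all inputs;
* `isPData_hecke`, `isPData_heckeBar` (I5'): if `(D, f)` presents the `p`-torsion class `x`
                                   (`x = cls D`, `p D = div f`) then `(T_ℓ D, N_α (β f))` presents
                                   `T_ℓ x` (`T_ℓ (div f) = div (N_α (β f))`).
-/
import Mathlib
import Fermat.Agent.T1B.Hecke87.InputsX0
import Fermat.Agent.ES.HECKE.InputsFinal15
import Fermat.Agent.ES.HECKE.PointFormula28
import Fermat.Agent.ES.KRON.Conjugates11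

set_option autoImplicit false
set_option linter.unusedSectionVars false
set_option linter.style.haveILetI false

noncomputable section

namespace Fermat.Agent.T1B.Hecke87

open HahnSeries ModularCurve AlgebraicCurve
open Fermat.Agent.X0 Fermat.Agent.T1B.Hecke3
open Fermat.Agent.ES.HECKE Fermat.Agent.ES.HECKE.PointFormula28

variable (N ℓ : ℕ) [NeZero N] [NeZero ℓ]

/-! ### (I4') the second expansion -/

/-- **(I4')** The expansion `W` of `FF (N ℓ)` at the cusp `ℓ / N` (`W ∘ β = id`,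
`W ∘ α = (q ↦ q^ℓ)`) is the identity on the constants. -/
theorem exists_W_const (hℓ : ℓ.Prime) (hℓN : ¬ ℓ ∣ N) :
    ∃ W : FF (N * ℓ) →+* LaurentSeries Kbar,
      (∀ h : FF N, W (heckeBetaBar Kbar N ℓ h) = (h : LaurentSeries Kbar)) ∧
      (∀ f : FF N, W (heckeAlphaBar Kbar N ℓ f) = qExpand Kbar ℓ (f : LaurentSeries Kbar)) ∧
      ∀ c : Kbar, W (algebraMap Kbar (FF (N * ℓ)) c) = HahnSeries.C c := by
  obtain ⟨W, hβ, hα⟩ := Fermat.Agent.ES.KRON.Conjugates11.exists_W N ℓ hℓ hℓN
  refine ⟨W, hβ, hα, fun c => ?_⟩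
  rw [← (heckeBetaBar Kbar N ℓ).commutes c, hβ]
  exact iota_const N c

/-- `DeltaInputs` for the second expansion. -/
theorem deltaInputs_W (A : ValuationSubring Kbar) (p : ℕ) [CharP (Kap A) p]
    (W : FF (N * ℓ) →+* LaurentSeries Kbar)
    (hW : ∀ c : Kbar, W (algebraMap Kbar (FF (N * ℓ)) c) = HahnSeries.C c)
    (hnorm : ∀ f : FF (N * ℓ), f ≠ 0 → Normalisable A (W f)) : DeltaInputs A W p :=
  deltaInputs_of_hom (N * ℓ) A p W hW hnorm

/-! ### (I5) unfolding of the Hecke operator -/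

section Hecke

variable (hℓ : ℓ.Prime) (hℓN : ¬ ℓ ∣ N)

/-- **(I5)** `T_ℓ (cls D) = cls (α_* β^* D)`, unconditionally for `ℓ ∤ N` prime. -/
theorem heckeOperatorAlong_mk_bar (D : Divisor.degZero (K := Kbar) (F := FF N)) :
    haveI := InputsMain19.hasPrincipalDivisors_level N ℓ
    heckeOperatorAlong Kbar N ℓ (Pic0.mk D) =
      Pic0.mk (Pic0.degZeroCorrespondence (heckeBetaBar Kbar N ℓ) (heckeAlphaBar Kbar N ℓ)
        (AlongDegree25.heckeBetaBarIntegral Kbar N ℓ hℓ hℓN)
        (AlongDegree25.heckeAlphaBarIntegral Kbar N ℓ hℓ hℓN)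
        (InputsMain19.fundamentalIdentityAlong_beta N ℓ hℓ hℓN) D) := by
  haveI := InputsMain19.hasPrincipalDivisors_level N ℓ
  exact heckeOperatorAlong_mk (AlongDegree25.heckeAlphaBarIntegral Kbar N ℓ hℓ hℓN)
    (AlongDegree25.heckeBetaBarIntegral Kbar N ℓ hℓ hℓN)
    (InputsMain19.fundamentalIdentityAlong_beta N ℓ hℓ hℓN)
    (AlongDegree25.finiteAlong_alpha Kbar N ℓ hℓ hℓN)
    (InputsFinal15.normFormulaAlong_alpha N ℓ hℓ hℓN) D

/-- The norm along a finite `ψ` of a nonzero function is nonzero. -/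
theorem normAlong_ne_zero {K F F' : Type*} [Field K] [Field F] [Field F'] [Algebra K F]
    [Algebra K F'] (ψ : F →ₐ[K] F') (hfin : FiniteAlong K ψ) {y : F'} (hy : y ≠ 0) :
    normAlong ψ y ≠ 0 := by
  letI := algebraAlong ψ
  haveI : Module.Finite F F' := hfin
  exact Algebra.norm_ne_zero_iff.2 hy

/-- **(I5')** `T_ℓ` on presentations of `p`-torsion classes: `T_ℓ (div f) = div (N_α (β f))`. -/
theorem isPData_hecke (p : ℕ) {x : Pic0 Kbar (FF N)}
    {D : Divisor.degZero (K := Kbar) (F := FF N)} {f : FF N}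
    (h : IsPData (K := Kbar) p x D f) :
    haveI := InputsMain19.hasPrincipalDivisors_level N ℓ
    IsPData (K := Kbar) p (heckeOperatorAlong Kbar N ℓ x)
      (Pic0.degZeroCorrespondence (heckeBetaBar Kbar N ℓ) (heckeAlphaBar Kbar N ℓ)
        (AlongDegree25.heckeBetaBarIntegral Kbar N ℓ hℓ hℓN)
        (AlongDegree25.heckeAlphaBarIntegral Kbar N ℓ hℓ hℓN)
        (InputsMain19.fundamentalIdentityAlong_beta N ℓ hℓ hℓN) D)
      (normAlong (heckeAlphaBar Kbar N ℓ) (heckeBetaBar Kbar N ℓ f)) := by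
  haveI := InputsMain19.hasPrincipalDivisors_level N ℓ
  obtain ⟨hx, hf, hD⟩ := h
  have hβf : heckeBetaBar Kbar N ℓ f ≠ 0 := (map_ne_zero _).2 hf
  refine ⟨?_, normAlong_ne_zero _ (AlongDegree25.finiteAlong_alpha Kbar N ℓ hℓ hℓN) hβf,
    fun v => ?_⟩
  · rw [← hx]
    exact (heckeOperatorAlong_mk_bar N ℓ hℓ hℓN D).symm
  · have hpD : ∀ w : Place Kbar (FF N), ((p : ℤ) • (D : Divisor Kbar (FF N))) w = w.ord f := by
      intro w
      rw [Finsupp.smul_apply, smul_eq_mul]
      exact hD w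
    have key := correspondence_eq_ord_norm (heckeBetaBar Kbar N ℓ) (heckeAlphaBar Kbar N ℓ)
      (AlongDegree25.heckeBetaBarIntegral Kbar N ℓ hℓ hℓN)
      (AlongDegree25.heckeAlphaBarIntegral Kbar N ℓ hℓ hℓN)
      (AlongDegree25.finiteAlong_alpha Kbar N ℓ hℓ hℓN)
      (InputsFinal15.normFormulaAlong_alpha N ℓ hℓ hℓN) hf hpD v
    rw [← key, map_zsmul, Finsupp.smul_apply, smul_eq_mul]
    rfl

end Hecke

/-! ### The same for the Prelude's `heckeOperatorBar` (indexed by `Nat.Primes`) -/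

/-- **(I5)** for `heckeOperatorBar`. -/
theorem heckeOperatorBar_mk_bar (q : Nat.Primes) (hqN : ¬ (q : ℕ) ∣ N)
    (D : Divisor.degZero (K := Kbar) (F := FF N)) :
    haveI : NeZero (q : ℕ) := ⟨q.2.ne_zero⟩
    haveI := InputsMain19.hasPrincipalDivisors_level N (q : ℕ)
    heckeOperatorBar N q (Pic0.mk D) =
      Pic0.mk (Pic0.degZeroCorrespondence (heckeBetaBar Kbar N (q : ℕ))
        (heckeAlphaBar Kbar N (q : ℕ))
        (AlongDegree25.heckeBetaBarIntegral Kbar N (q : ℕ) q.2 hqN)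
        (AlongDegree25.heckeAlphaBarIntegral Kbar N (q : ℕ) q.2 hqN)
        (InputsMain19.fundamentalIdentityAlong_beta N (q : ℕ) q.2 hqN) D) := by
  haveI : NeZero (q : ℕ) := ⟨q.2.ne_zero⟩
  rw [heckeOperatorBar_apply]
  exact heckeOperatorAlong_mk_bar N (q : ℕ) q.2 hqN D

/-- **(I5')** for `heckeOperatorBar`. -/
theorem isPData_heckeBar (q : Nat.Primes) (hqN : ¬ (q : ℕ) ∣ N) (p : ℕ)
    {x : Pic0 Kbar (FF N)} {D : Divisor.degZero (K := Kbar) (F := FF N)} {f : FF N}
    (h : IsPData (K := Kbar) p x D f) :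
    haveI : NeZero (q : ℕ) := ⟨q.2.ne_zero⟩
    haveI := InputsMain19.hasPrincipalDivisors_level N (q : ℕ)
    IsPData (K := Kbar) p (heckeOperatorBar N q x)
      (Pic0.degZeroCorrespondence (heckeBetaBar Kbar N (q : ℕ)) (heckeAlphaBar Kbar N (q : ℕ))
        (AlongDegree25.heckeBetaBarIntegral Kbar N (q : ℕ) q.2 hqN)
        (AlongDegree25.heckeAlphaBarIntegral Kbar N (q : ℕ) q.2 hqN)
        (InputsMain19.fundamentalIdentityAlong_beta N (q : ℕ) q.2 hqN) D)
      (normAlong (heckeAlphaBar Kbar N (q : ℕ)) (heckeBetaBar Kbar N (q : ℕ) f)) := by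
  haveI : NeZero (q : ℕ) := ⟨q.2.ne_zero⟩
  rw [heckeOperatorBar_apply]
  exact isPData_hecke N (q : ℕ) q.2 hqN p h

end Fermat.Agent.T1B.Hecke87
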