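/-
Programme T1B (row 38 / S44), cell R2/BRANDT, work item W2 (helper36's design v2, report 1073),
helper87: THE CHAR-`p` INPUTS OF `Brandt36/Main` FOR `k₁ = FullC κ M ⊂ k₁' = FullC κ (M ℓ)`,
unconditional (`κ` algebraically closed of characteristic `p ∤ M ℓ`, `ℓ` prime):

* `hasPrincipalDivisors_fullC`, `deg_eq_one_fullC`, `exists_const_fullC` (residue fields are `κ`);
* `isIntegral_alphaC/betaC`, `normFormulaAlong_alphaC/betaC`,
  `fundamentalIdentityAlong_alphaC/betaC` (Prelude shapes), `inertiaDegAlong_eq_one`;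
* bridges `alphaC_eq`, `betaC_eq` to helper27's `Brandt27.alphaC/betaC` and the same statements for
  his maps (`normFormulaAlong_alphaC27`, ...).
-/
import Mathlib
import Fermat.Agent.T1B.Hecke87.CharPX0
import Fermat.Agent.T1B.Hecke87.HPDCharP
import Fermat.Agent.T1B.Brandt27.DegreeC

set_option autoImplicit false
set_option linter.style.haveILetI false
set_option linter.unusedSectionVars false

open AlgebraicCurve ModularCurve IntermediateField

noncomputable section

namespace Fermat.Agent.T1B.Hecke87.CharPX0Final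

open Fermat.Agent.X0 Fermat.Agent.T1B.Hecke87.CharPX0 Fermat.Agent.T1B.Hecke87.HPDCharP

variable (k : Type) [Field k] [IsAlgClosed k] (p : ℕ) [Fact p.Prime] [CharP k p]

/-- All places of `FullC k N` have degree one. -/
theorem deg_eq_one_fullC (N : ℕ) [NeZero N] (hpN : ¬ p ∣ N)
    (w : Place k ↥(modularFunctionFieldFullC k N)) : w.deg = 1 :=
  FF.deg_eq_one (isGen_jC k p N hpN) w

/-- Residue fields of places of `FullC k N` are `k`. -/
theorem exists_const_fullC (N : ℕ) [NeZero N] (hpN : ¬ p ∣ N)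
    (w : Place k ↥(modularFunctionFieldFullC k N)) {f : ↥(modularFunctionFieldFullC k N)}
    (hf : f ∈ w.toValuationSubring) :
    ∃ c : k, f = algebraMap k _ c ∨ 0 < w.ord (f - algebraMap k _ c) :=
  FF.exists_ord_sub_pos (isGen_jC k p N hpN) w hf

variable (M ℓ : ℕ) [NeZero M] [NeZero ℓ]

/-- **`FundamentalIdentityAlong` for `ᾱ`** (Prelude shape). -/
theorem fundamentalIdentityAlong_alphaC (hp : ¬ p ∣ M * ℓ) :
    haveI := hasPrincipalDivisors_fullC k p (M * ℓ) hp
    FundamentalIdentityAlong k (alphaC k M ℓ) (isIntegral_alphaC k p M ℓ hp) := by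
  haveI := hasPrincipalDivisors_fullC k p (M * ℓ) hp
  have hpM : ¬ p ∣ M := fun h => hp (h.mul_right ℓ)
  exact FundSep.fundamentalIdentityAlong _ _ (finiteAlong_alphaC k p M ℓ hp)
    (separableAlong_alphaC k p M ℓ hp) (isGen_jC k p M hpM) (isGen_jC k p (M * ℓ) hp)

/-- **`FundamentalIdentityAlong` for `β̄`** (Prelude shape). -/
theorem fundamentalIdentityAlong_betaC (hp : ¬ p ∣ M * ℓ) (hℓ : ℓ.Prime) (hℓk : (ℓ : k) ≠ 0) :
    haveI := hasPrincipalDivisors_fullC k p (M * ℓ) hp
    FundamentalIdentityAlong k (betaC k M ℓ) (isIntegral_betaC k p M ℓ hp hℓ hℓk) := by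
  haveI := hasPrincipalDivisors_fullC k p (M * ℓ) hp
  have hpM : ¬ p ∣ M := fun h => hp (h.mul_right ℓ)
  exact FundSep.fundamentalIdentityAlong _ _ (finiteAlong_betaC k p M ℓ hp hℓ hℓk)
    (separableAlong_betaC k p M ℓ hp hℓ hℓk) (isGen_jC k p M hpM) (isGen_jC k p (M * ℓ) hp)

/-- Inertia degrees along any integral `φ : FullC k M → FullC k N'` are one. -/
theorem inertiaDegAlong_eq_one (N' : ℕ) [NeZero N'] (hpN' : ¬ p ∣ N')
    (φ : ↥(modularFunctionFieldFullC k M) →ₐ[k] ↥(modularFunctionFieldFullC k N'))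
    (hφ : φ.toRingHom.IsIntegral) (w : Place k ↥(modularFunctionFieldFullC k N')) :
    w.inertiaDegAlong φ hφ = 1 := by
  letI := algebraAlong φ
  haveI := isScalarTower_along φ
  haveI := isIntegral_along φ hφ
  have h := w.deg_restrict_mul_inertiaDeg (F := ↥(modularFunctionFieldFullC k M))
  rw [deg_eq_one_fullC k p N' hpN' w] at h
  exact Nat.eq_one_of_mul_eq_one_left h

/-! ### bridges to `Brandt27.alphaC / betaC` -/

theorem alphaC_eq : alphaC k M ℓ = Fermat.Agent.T1B.Brandt27.alphaC k M ℓ :=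
  AlgHom.ext fun x => Subtype.ext (by
    rw [coe_alphaC, Fermat.Agent.T1B.Brandt27.coe_alphaC])

theorem betaC_eq : betaC k M ℓ = Fermat.Agent.T1B.Brandt27.betaC k M ℓ :=
  AlgHom.ext fun x => Subtype.ext (by
    rw [coe_betaC, Fermat.Agent.T1B.Brandt27.coe_betaC])

/-- The norm formula along helper27's `alphaC`. -/
theorem normFormulaAlong_alphaC27 (hp : ¬ p ∣ M * ℓ)
    (hfin : FiniteAlong k (Fermat.Agent.T1B.Brandt27.alphaC k M ℓ)) :
    NormFormulaAlong k (Fermat.Agent.T1B.Brandt27.alphaC k M ℓ) hfin := by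
  have h := normFormulaAlong_alphaC k p M ℓ hp
  revert hfin
  rw [← alphaC_eq k M ℓ]
  intro hfin
  exact h

/-- The norm formula along helper27's `betaC`. -/
theorem normFormulaAlong_betaC27 (hp : ¬ p ∣ M * ℓ) (hℓ : ℓ.Prime) (hℓk : (ℓ : k) ≠ 0)
    (hfin : FiniteAlong k (Fermat.Agent.T1B.Brandt27.betaC k M ℓ)) :
    NormFormulaAlong k (Fermat.Agent.T1B.Brandt27.betaC k M ℓ) hfin := by
  have h := normFormulaAlong_betaC k p M ℓ hp hℓ hℓk
  revert hfin
  rw [← betaC_eq k M ℓ]
  intro hfin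
  exact h

/-- The fundamental identity along helper27's `alphaC`. -/
theorem fundamentalIdentityAlong_alphaC27 (hp : ¬ p ∣ M * ℓ)
    (hα : (Fermat.Agent.T1B.Brandt27.alphaC k M ℓ).toRingHom.IsIntegral) :
    haveI := hasPrincipalDivisors_fullC k p (M * ℓ) hp
    FundamentalIdentityAlong k (Fermat.Agent.T1B.Brandt27.alphaC k M ℓ) hα := by
  have h := fundamentalIdentityAlong_alphaC k p M ℓ hp
  revert hα
  rw [← alphaC_eq k M ℓ]
  intro hα
  exact h

/-- The fundamental identity along helper27's `betaC`. -/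
theorem fundamentalIdentityAlong_betaC27 (hp : ¬ p ∣ M * ℓ) (hℓ : ℓ.Prime) (hℓk : (ℓ : k) ≠ 0)
    (hβ : (Fermat.Agent.T1B.Brandt27.betaC k M ℓ).toRingHom.IsIntegral) :
    haveI := hasPrincipalDivisors_fullC k p (M * ℓ) hp
    FundamentalIdentityAlong k (Fermat.Agent.T1B.Brandt27.betaC k M ℓ) hβ := by
  have h := fundamentalIdentityAlong_betaC k p M ℓ hp hℓ hℓk
  revert hβ
  rw [← betaC_eq k M ℓ]
  intro hβ
  exact h

end Fermat.Agent.T1B.Hecke87.CharPX0Final
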